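import Fermat.Agent.Corollaries.Mazur.Defs
import Fermat.Agent.Corollaries.K1.AddEDS
import Fermat.Agent.S12.FreyType

/-!
# The normal form is semistable

`Normal.semistable`: the integral normal form of an elliptic curve over `ℚ` at a rational point of
prime order `p ≥ 11` is semistable, and `2` and `3` divide its discriminant.
-/

set_option autoImplicit false

noncomputable section

open WeierstrassCurve WeierstrassCurve.Affine

namespace Fermat.Agent.Cor.Mazur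

open Fermat.Agent.Cor.K1 (Gam Pts)
open Fermat.Agent Fermat.Agent.S12val

variable {p : ℕ} {W : WeierstrassCurve ℤ} {Q : Pt W}

/-- Outside the zero component at `ℓ`: `ℓ` divides `a₃`. -/
theorem Normal.dvd_a₃ (h : Normal p W Q) {ℓ : ℕ} (hℓ : ℓ.Prime)
    {A : ValuationSubring (AlgebraicClosure ℚ)} (hA : A.LiesOverPrime ℓ)
    (hn : ¬ W.InZeroComponentAt A Q) : (ℓ : ℤ) ∣ W.a₃ := by
  obtain ⟨x, y, hxy, hx, hy, hQ, -, -, h1, -⟩ := singular_of_not_inZero hn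
  obtain ⟨h0, hQ0⟩ := h.hQ
  rw [hQ0] at hQ
  injection hQ with e1 e2
  rw [← e1, ← e2, mul_zero, mul_zero, zero_add, zero_add] at h1
  by_contra hcon
  have h2 := S13aux.val_eq_one_of_not_dvd hℓ hA hcon
  rw [ValuationSubring.mem_nonunits_iff] at h1
  exact h1.ne h2

/-- The point is outside the zero component at `2` and `3`. -/
theorem Normal.not_inZero_of_small (h : Normal p W Q) (hp : p.Prime) {ℓ : ℕ} (hℓ : ℓ.Prime)
    (hlt : 2 * ℓ + 1 < p) {A : ValuationSubring (AlgebraicClosure ℚ)} (hA : A.LiesOverPrime ℓ) :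
    ¬ W.InZeroComponentAt A Q :=
  S12val.not_inZero_of_small hp hℓ hlt hA h.fix h.ord

theorem Normal.dvd_Δ_of_small (h : Normal p W Q) (hp : p.Prime) {ℓ : ℕ} (hℓ : ℓ.Prime)
    (hlt : 2 * ℓ + 1 < p) : (ℓ : ℤ) ∣ W.Δ := by
  obtain ⟨A, hA⟩ := Frob.exists_liesOverPrime ℓ hℓ
  exact dvd_Δ_of_not_inZero hℓ hA (h.not_inZero_of_small hp hℓ hlt hA)

theorem Normal.dvd_a₃_of_small (h : Normal p W Q) (hp : p.Prime) {ℓ : ℕ} (hℓ : ℓ.Prime)
    (hlt : 2 * ℓ + 1 < p) : (ℓ : ℤ) ∣ W.a₃ := by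
  obtain ⟨A, hA⟩ := Frob.exists_liesOverPrime ℓ hℓ
  exact h.dvd_a₃ hℓ hA (h.not_inZero_of_small hp hℓ hlt hA)

/-- The division polynomial vanishes at `x = 0`. -/
theorem Normal.eval_preΨ' (h : Normal p W Q) (hp : p.Prime) (hp2 : p ≠ 2) :
    (W.preΨ' p).eval 0 = 0 := by
  obtain ⟨h0, hQ0⟩ := h.hQ
  have hodd : ¬ Even p := by
    rw [Nat.not_even_iff_odd]
    exact hp.odd_of_ne_two hp2
  have h1 : p • (Point.some 0 0 h0 : Pt W) = 0 := by
    rw [← hQ0, ← h.ord]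
    exact addOrderOf_nsmul_eq_zero Q
  have h2 := aeval_preΨ'_eq_zero (W := W) hodd (r := 0) (hxy := h0) (map_zero _) h1
  rw [Polynomial.aeval_def, Polynomial.eval₂_at_zero] at h2
  have h3 : ((Polynomial.coeff (W.preΨ' p) 0 : ℤ) : ℚ) = 0 := h2
  rw [← Polynomial.coeff_zero_eq_eval_zero]
  exact_mod_cast h3

/-- The normal form is semistable, if the point does not reduce to a cusp. -/
theorem Normal.isSemistableModel_of (h : Normal p W Q) (hp : p.Prime) (h11 : 11 ≤ p)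
    (hC : ∀ ℓ : ℕ, ℓ.Prime → (ℓ : ℤ) ∣ W.a₃ → (ℓ : ℤ) ∣ W.c₄ → False) :
    W.IsSemistableModel := by
  intro ℓ hℓ hΔ hc
  by_cases h3 : (ℓ : ℤ) ∣ W.a₃
  · exact hC ℓ hℓ h3 hc
  · have hℓ5 : 5 ≤ ℓ := by
      by_contra hlt
      have h4 : ℓ ≠ 4 := by
        rintro rfl
        exact absurd hℓ (by norm_num)
      exact h3 (h.dvd_a₃_of_small hp hℓ (by omega))
    exact preΨ'_eval_zero_ne h.h4 h.h6 hp h11 hℓ hℓ5 h3 hc hΔ (h.eval_preΨ' hp (by omega))

end Fermat.Agent.Cor.Mazur
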