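import Fermat.Agent.S12.SmallPrime
import Fermat.Agent.S12.AtP
import Fermat.Agent.S15
import Fermat.Agent.Corollaries.Mazur.Semi

/-!
# A rational point of order `p = 11`, `p ≥ 17` is outside the identity component at every bad prime
-/

set_option autoImplicit false

open WeierstrassCurve WeierstrassCurve.Affine WeierstrassCurve.Affine.Point
open scoped WeierstrassCurve.Affine

namespace Fermat.Agent.Cor.Mazur

/-- **The third step of Mazur's theorem, at all places.** Let `W` be a semistable model with bad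
reduction at `2` and `3` and `Q` a rational point of prime order `p = 11` or `p ≥ 17`. Then `Q` is
outside the identity component at every bad prime (`p` included). -/
theorem notMem_of_semistable {W : WeierstrassCurve ℤ} (hΔ : W.Δ ≠ 0) (hss : W.IsSemistableModel)
    (h2 : (2 : ℤ) ∣ W.Δ) (h3 : (3 : ℤ) ∣ W.Δ) {p : ℕ} (hp : p.Prime) (hp' : p = 11 ∨ 17 ≤ p)
    {Q : ((W.map (Int.castRingHom ℚ))⁄(AlgebraicClosure ℚ)).Point}
    (hfix : ∀ σ : AlgebraicClosure ℚ ≃ₐ[ℚ] AlgebraicClosure ℚ, σ • Q = Q)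
    (hord : addOrderOf Q = p) {ℓ : ℕ} (hℓ : ℓ.Prime) (hd : (ℓ : ℤ) ∣ W.Δ)
    {A : ValuationSubring (AlgebraicClosure ℚ)} (hA : A.LiesOverPrime ℓ) :
    ¬ W.InZeroComponentAt A Q := by
  have hp7 : 7 < p := by omega
  by_cases hℓp : ℓ = p
  · subst hℓp
    exact S12val.not_inZero_at_p hℓ (by omega) hA hd (hss ℓ hℓ hd) hfix hord
  · refine S15.result hp ?_ W hΔ Q hfix hord h2 (hss 2 Nat.prime_two h2)
      (fun B hB => S12val.not_inZero_of_small hp Nat.prime_two (by omega) hB hfix hord) h3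
      (hss 3 Nat.prime_three h3)
      (fun B hB => S12val.not_inZero_of_small hp Nat.prime_three (by omega) hB hfix hord)
      hℓ hℓp hd (hss ℓ hℓ hd) A hA
    simp only [Finset.mem_insert, Finset.mem_singleton, not_or]
    refine ⟨by omega, by omega, by omega, by omega, ?_⟩
    rintro rfl
    omega

/-- **The point of a semistable normal form is outside the identity component at every bad
prime.** -/
theorem Normal.notMem_of {p : ℕ} {W : WeierstrassCurve ℤ} {Q : Pt W} (h : Normal p W Q)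
    (hss : W.IsSemistableModel) (hp : p.Prime) (hp' : p = 11 ∨ 17 ≤ p) {ℓ : ℕ} (hℓ : ℓ.Prime)
    (hd : (ℓ : ℤ) ∣ W.Δ) {A : ValuationSubring (AlgebraicClosure ℚ)} (hA : A.LiesOverPrime ℓ) :
    ¬ W.InZeroComponentAt A Q := by
  have h2 : ((2 : ℕ) : ℤ) ∣ W.Δ := h.dvd_Δ_of_small hp Nat.prime_two (by omega)
  have h3 : ((3 : ℕ) : ℤ) ∣ W.Δ := h.dvd_Δ_of_small hp Nat.prime_three (by omega)
  exact notMem_of_semistable h.hΔ hss h2 h3 hp hp' h.fix h.ord hℓ hd hA

end Fermat.Agent.Cor.Mazur
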