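import Fermat.Agent.Corollaries.Mazur.Defs
import Fermat.Agent.S12.ZeroComp
import Fermat.Agent.Frob.Exists

/-!
# The normal form at a singular reduction of the point `(0, 0)`

Let `y² + a₁ x y + a₃ y = x³ + a₂ x²` with integral coefficients, `Q = (0, 0)` of prime order
`p ≥ 5`, and let `ℓ` be a prime which divides `a₃` (so `Q` reduces to the singular point `(0, 0)`)
and `c₄` (so the reduction is additive).  No multiple `k Q ≠ 0` lies on the identity component, so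
all of `x(2Q) = -a₂`, `x(3Q) = t (t - a₁)`, `x(4Q) = s (s + t)` vanish modulo `ℓ`, where
`t = a₃ / a₂` and `s = a₂ / (t - a₁)`.  Hence `ℓ` divides `a₁`, `t` and `s`, and so `ℓ ∣ a₁`,
`ℓ² ∣ a₂`, `ℓ³ ∣ a₃`: the equation is not minimal.
-/

set_option autoImplicit false

noncomputable section

open WeierstrassCurve WeierstrassCurve.Affine WeierstrassCurve.Affine.Point
open FermatAgent.ECVal FermatAgent.ECVal.QVal
open Fermat.Agent.S12val Fermat.Agent.ECRed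

namespace Fermat.Agent.Cor.Mazur

namespace Cusp

/-! ### The multiples of `(0, 0)` -/

section Formulas

variable {F : Type*} [Field F] [DecidableEq F] {V : WeierstrassCurve F}

/-- The coordinates of `2Q`, `3Q` and `4Q` for `Q = (0, 0)`. -/
theorem multiples (h4 : V.a₄ = 0) {Q : V.toAffine.Point} (hQ : ∃ h, Q = Point.some 0 0 h)
    (h2Q : 2 • Q ≠ 0) (h3Q : 3 • Q ≠ 0) (h4Q : 4 • Q ≠ 0) :
    V.a₃ ≠ 0 ∧ V.a₂ ≠ 0 ∧ V.a₃ / V.a₂ - V.a₁ ≠ 0 ∧
    (∃ y h, 2 • Q = Point.some (-V.a₂) y h) ∧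
    (∃ y h, 3 • Q = Point.some (V.a₃ / V.a₂ * (V.a₃ / V.a₂ - V.a₁)) y h) ∧
    (∃ y h, 4 • Q = Point.some (V.a₂ / (V.a₃ / V.a₂ - V.a₁) *
      (V.a₂ / (V.a₃ / V.a₂ - V.a₁) + V.a₃ / V.a₂)) y h) := by
  obtain ⟨h0, rfl⟩ := hQ
  have ha3 : V.a₃ ≠ 0 := by
    intro h
    apply h2Q
    rw [two_nsmul]
    exact Point.add_of_Y_eq rfl (by simp [Affine.negY, h])
  have hy : (0 : F) ≠ V.toAffine.negY 0 0 := by
    simp only [Affine.negY]
    intro h
    apply ha3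
    linear_combination h
  have hs1 : V.toAffine.slope 0 0 0 0 = 0 := by
    rw [Affine.slope_of_Y_ne rfl hy, h4]
    simp
  -- `2Q`
  have hQ2 : ∃ h, 2 • (Point.some 0 0 h0 : V.toAffine.Point) =
      Point.some (-V.a₂) (V.a₁ * V.a₂ - V.a₃) h := by
    have h := Point.add_of_Y_ne (h₁ := h0) (h₂ := h0) hy
    rw [← two_nsmul] at h
    have e1 : V.toAffine.addX 0 0 (V.toAffine.slope 0 0 0 0) = -V.a₂ := by
      rw [hs1, Affine.addX]; ring
    have e2 : V.toAffine.addY 0 0 0 (V.toAffine.slope 0 0 0 0) = V.a₁ * V.a₂ - V.a₃ := by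
      rw [Affine.addY, Affine.negAddY, hs1, Affine.addX, Affine.negY]; ring
    refine ⟨?_, ?_⟩
    · rw [← e1, ← e2]
      exact Affine.nonsingular_add h0 h0 fun hxy => hy hxy.2
    · rw [h]
      simp only [e1, e2]
  obtain ⟨hn2, e2Q⟩ := hQ2
  have ha2 : V.a₂ ≠ 0 := by
    intro h
    have h1 : (-V.a₂ : F) = 0 := by rw [h, _root_.neg_zero]
    rcases (Point.X_eq_iff (h₁ := hn2) (h₂ := h0)).mp h1 with h2 | h2
    · rw [← e2Q, two_nsmul, add_eq_right] at h2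
      exact Point.some_ne_zero _ h2
    · rw [← e2Q, ← add_eq_zero_iff_eq_neg, ← succ_nsmul] at h2
      exact h3Q h2
  have hx2 : (-V.a₂ : F) ≠ 0 := neg_ne_zero.mpr ha2
  set t : F := V.a₃ / V.a₂ with ht
  have e3 : V.a₃ = t * V.a₂ := by rw [ht]; field_simp
  clear_value t
  -- `3Q`
  have hQ3 : ∃ h, 3 • (Point.some 0 0 h0 : V.toAffine.Point) =
      Point.some (t * (t - V.a₁)) (-(t ^ 2 * (t - V.a₁)) - V.a₃) h := by
    have h := Point.add_of_X_ne (h₁ := hn2) (h₂ := h0) hx2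
    rw [← e2Q, ← succ_nsmul] at h
    have hs2 : V.toAffine.slope (-V.a₂) 0 (V.a₁ * V.a₂ - V.a₃) 0 = t - V.a₁ := by
      rw [Affine.slope_of_X_ne hx2, ht]
      field_simp
      ring
    have e1 : V.toAffine.addX (-V.a₂) 0 (V.toAffine.slope (-V.a₂) 0 (V.a₁ * V.a₂ - V.a₃) 0) =
        t * (t - V.a₁) := by
      rw [hs2, Affine.addX]; ring
    have e2 : V.toAffine.addY (-V.a₂) 0 (V.a₁ * V.a₂ - V.a₃)
        (V.toAffine.slope (-V.a₂) 0 (V.a₁ * V.a₂ - V.a₃) 0) =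
        -(t ^ 2 * (t - V.a₁)) - V.a₃ := by
      rw [Affine.addY, Affine.negAddY, hs2, Affine.addX, Affine.negY]
      linear_combination e3
    refine ⟨?_, ?_⟩
    · rw [← e1, ← e2]
      exact Affine.nonsingular_add hn2 h0 fun hxy => hx2 hxy.1
    · rw [h]
      simp only [e1, e2]
  obtain ⟨hn3, e3Q⟩ := hQ3
  have ht1 : t * (t - V.a₁) ≠ 0 := by
    intro h1
    rcases (Point.X_eq_iff (h₁ := hn3) (h₂ := h0)).mp h1 with h2 | h2
    · rw [← e3Q, succ_nsmul, add_eq_right] at h2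
      exact h2Q h2
    · rw [← e3Q, ← add_eq_zero_iff_eq_neg, ← succ_nsmul] at h2
      exact h4Q h2
  have ht2 : t - V.a₁ ≠ 0 := right_ne_zero_of_mul ht1
  have ht0 : t ≠ 0 := left_ne_zero_of_mul ht1
  refine ⟨ha3, ha2, ht2, ⟨_, _, e2Q⟩, ⟨_, _, e3Q⟩, ?_⟩
  set s : F := V.a₂ / (t - V.a₁) with hs
  have e2' : V.a₂ = s * (t - V.a₁) := by rw [hs]; field_simp
  clear_value s
  have h := Point.add_of_X_ne (h₁ := hn3) (h₂ := h0) ht1
  rw [← e3Q, ← succ_nsmul] at h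
  have hs3 : V.toAffine.slope (t * (t - V.a₁)) 0 (-(t ^ 2 * (t - V.a₁)) - V.a₃) 0 =
      -(t + s) := by
    rw [Affine.slope_of_X_ne ht1, e3, div_eq_iff (sub_ne_zero.mpr ht1)]
    linear_combination (-t) * e2'
  have e1 : V.toAffine.addX (t * (t - V.a₁)) 0
      (V.toAffine.slope (t * (t - V.a₁)) 0 (-(t ^ 2 * (t - V.a₁)) - V.a₃) 0) = s * (s + t) := by
    rw [hs3, Affine.addX]
    linear_combination -e2'
  refine ⟨V.toAffine.addY (t * (t - V.a₁)) 0 (-(t ^ 2 * (t - V.a₁)) - V.a₃)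
    (V.toAffine.slope (t * (t - V.a₁)) 0 (-(t ^ 2 * (t - V.a₁)) - V.a₃) 0), ?_, ?_⟩
  · rw [← e1]
    exact Affine.nonsingular_add hn3 h0 fun hxy => ht1 hxy.1
  · rw [h]
    simp only [e1]

end Formulas

/-! ### Valuations of integers and rational numbers -/

section Val

variable {ℓ : ℕ} {A : ValuationSubring (AlgebraicClosure ℚ)}

theorem ge_intCast_iff (hℓ : ℓ.Prime) (hA : A.LiesOverPrime ℓ) {n : ℕ} {m : ℤ} :
    (valOf hℓ hA).Ge n (m : AlgebraicClosure ℚ) ↔ (ℓ : ℤ) ^ n ∣ m := by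
  have : Fact ℓ.Prime := ⟨hℓ⟩
  by_cases hm : m = 0
  · subst hm
    simp only [Int.cast_zero, dvd_zero, iff_true]
    exact ge_zero _
  have h1 := valOf_ratCast (K := AlgebraicClosure ℚ) hℓ hA (r := (m : ℚ))
    (by exact_mod_cast hm)
  rw [padicValRat.of_int, map_intCast] at h1
  rw [padicValInt_dvd_iff, or_iff_right hm]
  constructor
  · intro h
    have h2 := h1.le_of_ge h
    exact_mod_cast h2
  · intro h
    refine h1.ge.mono ?_
    exact_mod_cast h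

theorem ge_one_of_gt_zero (hℓ : ℓ.Prime) (hA : A.LiesOverPrime ℓ) {r : ℚ}
    (h : (valOf hℓ hA).Gt 0 (algebraMap ℚ (AlgebraicClosure ℚ) r)) :
    (valOf hℓ hA).Ge 1 (algebraMap ℚ (AlgebraicClosure ℚ) r) := by
  by_cases hr : r = 0
  · subst hr
    rw [_root_.map_zero]
    exact ge_zero _
  have h1 := valOf_ratCast (K := AlgebraicClosure ℚ) hℓ hA hr
  have h2 := h1.lt_of_gt h
  refine h1.ge.mono ?_
  have h3 : (0 : ℤ) < padicValRat ℓ r := by exact_mod_cast h2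
  have h4 : (1 : ℤ) ≤ padicValRat ℓ r := h3
  exact_mod_cast h4

/-- If `t (t - a)` has positive valuation and `a` has, then `t` has. -/
theorem gt_zero_of_mul_sub {K : Type*} [Field K] {w : QVal K} {t a : K} (ha : w.Gt 0 a)
    (h : w.Gt 0 (t * (t - a))) : w.Gt 0 t := by
  by_contra hcon
  obtain ⟨h0, h1⟩ := not_gt_iff.mp hcon
  have h2 : w.Is (w.val t) t := Is.of_ne h0
  have h3 : w.Is (w.val t) (t - a) := h2.sub_gt (ha.mono h1)
  have h4 := (h2.mul h3).lt_of_gt h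
  linarith

end Val

/-! ### Points outside the zero component -/

section Points

variable {W : WeierstrassCurve ℤ} {A : ValuationSubring (AlgebraicClosure ℚ)}

/-- The multiples `k Q`, `p ∤ k`, of a point of prime order `p` outside the zero component lie
outside the zero component. -/
theorem not_inZero_nsmul {Q : Pt W} {p k : ℕ} (hp : p.Prime) (hord : addOrderOf Q = p)
    (hk : ¬ p ∣ k) (h : ¬ W.InZeroComponentAt A Q) : ¬ W.InZeroComponentAt A (k • Q) := by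
  classical
  intro hzero
  apply h
  have hE := redCurve_map_int_rat (K := AlgebraicClosure ℚ) (IsLocalRing.residue A) W
  have hpl := isPlace_valuationSubring A
  rw [inZeroComponentAt_iff] at hzero ⊢
  obtain ⟨R, hR⟩ := hzero
  have hco : Nat.Coprime k p := ((hp.coprime_iff_not_dvd).mpr hk).symm
  obtain ⟨m, -, hm⟩ := Nat.exists_mul_mod_eq_one_of_coprime hco hp.one_lt
  have h1 : m • (k • Q) = Q := by
    rw [← mul_smul, mul_comm, ← mod_addOrderOf_nsmul, hord, hm, one_smul]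
  refine ⟨m • R, ?_⟩
  have h2 := isRed_nsmul hE hpl hR m
  rwa [h1] at h2

/-- A point outside the zero component has `x`-coordinate `0` modulo the place, if the singular
point is `(0, 0)`. -/
theorem gt_zero_of_not_inZero {ℓ : ℕ} (hℓ : ℓ.Prime) (hA : A.LiesOverPrime ℓ) (h4 : W.a₄ = 0)
    (h6 : W.a₆ = 0) (h3 : (ℓ : ℤ) ∣ W.a₃) {P : Pt W} (h : ¬ W.InZeroComponentAt A P)
    {x y : AlgebraicClosure ℚ} {hxy} (hP : P = Point.some x y hxy) :
    (valOf hℓ hA).Gt 0 x := by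
  obtain ⟨x', y', hxy', hx, hy, hP', -, -, h1, h2⟩ := singular_of_not_inZero h
  rw [hP] at hP'
  obtain ⟨rfl, rfl⟩ := Point.some.inj hP'
  have heq := (Affine.equation_iff _ _).mp hxy.1
  rw [baseChange_a₁, baseChange_a₂, baseChange_a₃, baseChange_a₄, baseChange_a₆, h4, h6] at heq
  rw [h4] at h2
  set w := valOf hℓ hA with hw
  rw [← valOf_gt_zero_iff hℓ hA] at h1 h2
  rw [← valOf_ge_zero_iff hℓ hA] at hx hy
  have h3' : w.Ge 1 (W.a₃ : AlgebraicClosure ℚ) := by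
    have := (ge_intCast_iff hℓ hA (n := 1) (m := W.a₃)).mpr (by rw [pow_one]; exact h3)
    exact_mod_cast this
  have h5 : w.Gt 0 (x ^ 3) := by
    have e : x ^ 3 = -(y * (2 * y + (W.a₁ : AlgebraicClosure ℚ) * x + (W.a₃ : AlgebraicClosure ℚ)))
        - x * ((W.a₁ : AlgebraicClosure ℚ) * y - (3 * x ^ 2 + 2 * (W.a₂ : AlgebraicClosure ℚ) * x +
          ((0 : ℤ) : AlgebraicClosure ℚ))) - y * (W.a₃ : AlgebraicClosure ℚ) := by
      push_cast at heq ⊢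
      linear_combination 2 * heq
    rw [e]
    have i1 := (hy.mul_gt h1).mono (show (0 : ℚ) ≤ 0 + 0 by norm_num)
    have i2 := (hx.mul_gt h2).mono (show (0 : ℚ) ≤ 0 + 0 by norm_num)
    have i3 := (hy.mul h3').gt (show (0 : ℚ) < 0 + 1 by norm_num)
    exact (i1.neg.sub i2).sub i3
  by_contra hcon
  obtain ⟨h0, h7⟩ := not_gt_iff.mp hcon
  have h8 := ((Is.of_ne h0 : w.Is (w.val x) x).pow 3).lt_of_gt h5
  push_cast at h8
  linarith

end Points

/-! ### Tate's normal form with additive reduction -/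

/-- **The cusp.** If `Q = (0, 0)` has prime order `p ≥ 5`, `ℓ ∣ a₃` and `ℓ ∣ c₄`, then the normal
form is not minimal at `ℓ`. -/
theorem dvd_of_dvd_c₄ {W : WeierstrassCurve ℤ} (h4 : W.a₄ = 0) (h6 : W.a₆ = 0) {Q : Pt W}
    (hQ : ∃ h, Q = Point.some 0 0 h) {p : ℕ} (hp : p.Prime) (hp5 : 5 ≤ p)
    (hord : addOrderOf Q = p) {ℓ : ℕ} (hℓ : ℓ.Prime) (h3 : (ℓ : ℤ) ∣ W.a₃)
    (hc : (ℓ : ℤ) ∣ W.c₄) :
    (ℓ : ℤ) ∣ W.a₁ ∧ (ℓ : ℤ) ^ 2 ∣ W.a₂ ∧ (ℓ : ℤ) ^ 3 ∣ W.a₃ := by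
  classical
  obtain ⟨A, hA⟩ := Fermat.Agent.Frob.exists_liesOverPrime ℓ hℓ
  have hch := charP_residue hℓ hA
  -- `Q` is not in the zero component
  have hQ0 : ¬ W.InZeroComponentAt A Q := by
    obtain ⟨h0, rfl⟩ := hQ
    rintro (h | ⟨x, y, hxy, h, h' | ⟨hx, hy, hns⟩⟩)
    · exact Point.some_ne_zero _ h
    · obtain ⟨rfl, rfl⟩ := Point.some.inj h
      exact h' (zero_mem _)
    · obtain ⟨rfl, rfl⟩ := Point.some.inj h
      have e0 : (⟨0, hx⟩ : A) = 0 := rfl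
      rw [e0, _root_.map_zero, Affine.nonsingular_zero] at hns
      have e3 : (W.map (Int.castRingHom (IsLocalRing.ResidueField A))).a₃ = 0 := by
        rw [WeierstrassCurve.map_a₃, eq_intCast, CharP.intCast_eq_zero_iff _ ℓ]
        exact h3
      have e4 : (W.map (Int.castRingHom (IsLocalRing.ResidueField A))).a₄ = 0 := by
        rw [WeierstrassCurve.map_a₄, h4, _root_.map_zero]
      rcases hns.2 with h | h
      · exact h e3
      · exact h e4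
  have hk : ∀ k : ℕ, 0 < k → k < 5 → ¬ p ∣ k := by
    intro k hk0 hk5 hdvd
    have := Nat.le_of_dvd hk0 hdvd
    omega
  have hk0 : ∀ k : ℕ, 0 < k → k < 5 → k • Q ≠ 0 := by
    intro k hk1 hk5 h0
    apply hk k hk1 hk5
    rw [← hord]
    exact addOrderOf_dvd_iff_nsmul_eq_zero.mpr h0
  have hnot : ∀ k : ℕ, 0 < k → k < 5 → ¬ W.InZeroComponentAt A (k • Q) := fun k hk1 hk5 =>
    not_inZero_nsmul hp hord (hk k hk1 hk5) hQ0
  obtain ⟨ha3, ha2, ht1, ⟨y₂, h₂, e₂⟩, ⟨y₃, h₃, e₃⟩, ⟨y₄, h₄, e₄⟩⟩ :=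
    multiples (V := ((W.map (Int.castRingHom ℚ))⁄(AlgebraicClosure ℚ)))
      (by rw [S12val.baseChange_a₄, h4, Int.cast_zero]) hQ (hk0 2 (by norm_num) (by norm_num))
      (hk0 3 (by norm_num) (by norm_num)) (hk0 4 (by norm_num) (by norm_num))
  have g₂ := gt_zero_of_not_inZero hℓ hA h4 h6 h3 (hnot 2 (by norm_num) (by norm_num)) e₂
  have g₃ := gt_zero_of_not_inZero hℓ hA h4 h6 h3 (hnot 3 (by norm_num) (by norm_num)) e₃
  have g₄ := gt_zero_of_not_inZero hℓ hA h4 h6 h3 (hnot 4 (by norm_num) (by norm_num)) e₄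
  rw [S12val.baseChange_a₂] at ha2
  rw [S12val.baseChange_a₁, S12val.baseChange_a₂, S12val.baseChange_a₃] at ht1 g₃ g₄
  rw [S12val.baseChange_a₂] at g₂
  clear e₂ e₃ e₄ h₂ h₃ h₄
  set w := valOf hℓ hA with hw
  -- `ℓ ∣ a₂`, `ℓ ∣ a₁`
  have i2 : (ℓ : ℤ) ∣ W.a₂ := by
    have h := ge_one_of_gt_zero hℓ hA (r := (W.a₂ : ℚ)) (by
      rw [map_intCast]
      have := g₂.neg
      rwa [neg_neg] at this)
    rw [map_intCast] at h
    rw [← pow_one (ℓ : ℤ), ← ge_intCast_iff hℓ hA]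
    exact_mod_cast h
  have i1 : (ℓ : ℤ) ∣ W.a₁ := by
    have h : (ℓ : ℤ) ∣ W.b₂ ^ 2 := by
      have e : W.b₂ ^ 2 = W.c₄ + 24 * (W.a₁ * W.a₃) := by
        rw [WeierstrassCurve.c₄, WeierstrassCurve.b₄, h4]; ring
      rw [e]
      exact dvd_add hc (dvd_mul_of_dvd_right (dvd_mul_of_dvd_right h3 _) _)
    have hℓ' : Prime (ℓ : ℤ) := Nat.prime_iff_prime_int.mp hℓ
    have h' := hℓ'.dvd_of_dvd_pow h
    have e : W.a₁ ^ 2 = W.b₂ - 4 * W.a₂ := by rw [WeierstrassCurve.b₂]; ring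
    refine hℓ'.dvd_of_dvd_pow (n := 2) ?_
    rw [e]
    exact dvd_sub h' (dvd_mul_of_dvd_right i2 _)
  have j1 : w.Ge 1 (W.a₁ : AlgebraicClosure ℚ) := by
    have h := (ge_intCast_iff hℓ hA (n := 1) (m := W.a₁)).mpr (by rw [pow_one]; exact i1)
    exact_mod_cast h
  -- `t`
  have k1 : w.Ge 1 ((W.a₃ : AlgebraicClosure ℚ) / (W.a₂ : AlgebraicClosure ℚ)) := by
    have h := gt_zero_of_mul_sub (j1.gt zero_lt_one) g₃
    have h' := ge_one_of_gt_zero hℓ hA (r := (W.a₃ : ℚ) / (W.a₂ : ℚ)) (by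
      rw [map_div₀, map_intCast, map_intCast]
      exact h)
    rwa [map_div₀, map_intCast, map_intCast] at h'
  have k2 := k1.sub j1
  have k3 : w.Ge 1 ((W.a₂ : AlgebraicClosure ℚ) /
      ((W.a₃ : AlgebraicClosure ℚ) / (W.a₂ : AlgebraicClosure ℚ) - (W.a₁ : AlgebraicClosure ℚ))) := by
    have h := gt_zero_of_mul_sub (a := -((W.a₃ : AlgebraicClosure ℚ) / (W.a₂ : AlgebraicClosure ℚ)))
      (k1.gt zero_lt_one).neg (by rw [sub_neg_eq_add]; exact g₄)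
    have h' := ge_one_of_gt_zero hℓ hA
      (r := (W.a₂ : ℚ) / ((W.a₃ : ℚ) / (W.a₂ : ℚ) - (W.a₁ : ℚ))) (by
      rw [map_div₀, map_sub, map_div₀, map_intCast, map_intCast, map_intCast]
      exact h)
    rwa [map_div₀, map_sub, map_div₀, map_intCast, map_intCast, map_intCast] at h'
  have l2 : w.Ge 2 (W.a₂ : AlgebraicClosure ℚ) := by
    have h := (k3.mul k2).mono (show (2 : ℚ) ≤ 1 + 1 by norm_num)
    rwa [div_mul_cancel₀ _ ht1] at h
  have l3 : w.Ge 3 (W.a₃ : AlgebraicClosure ℚ) := by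
    have h := (k1.mul l2).mono (show (3 : ℚ) ≤ 1 + 2 by norm_num)
    rwa [div_mul_cancel₀ _ ha2] at h
  refine ⟨i1, ?_, ?_⟩
  · rw [← ge_intCast_iff hℓ hA]
    exact_mod_cast l2
  · rw [← ge_intCast_iff hℓ hA]
    exact_mod_cast l3

end Cusp

/-- (C) A normal form has no prime `ℓ` with `ℓ ∣ a₃` and `ℓ ∣ c₄`. -/
theorem Normal.not_cusp {p : ℕ} {W : WeierstrassCurve ℤ} {Q : Pt W} (h : Normal p W Q)
    (hp : p.Prime) (hp5 : 5 ≤ p) {ℓ : ℕ} (hℓ : ℓ.Prime) (h3 : (ℓ : ℤ) ∣ W.a₃)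
    (hc : (ℓ : ℤ) ∣ W.c₄) : False :=
  h.min ℓ hℓ (Cusp.dvd_of_dvd_c₄ h.h4 h.h6 h.hQ hp hp5 h.ord hℓ h3 hc)

end Fermat.Agent.Cor.Mazur
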