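import Fermat.Agent.Corollaries.HW.Irred

/-!
# Reducible mod `p` representations of semistable curves, in terms of points

If `W` is semistable, `p` odd and `W[p]` reducible, then `W` has a rational point of order `p`, or
`W[p]` has a stable subgroup `L` of order `p` such that `G_ℚ` acts trivially on `W[p] / L`.
-/

set_option autoImplicit false

noncomputable section

namespace Fermat.Agent.Cor.Mazur

open WeierstrassCurve WeierstrassCurve.Affine WeierstrassCurve.Affine.Point
open Fermat.Agent.ECFrob Fermat.Agent.Torsion Fermat.Agent.FlatGS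
open Fermat.Agent.S53norm (M2)
open Fermat.Agent.GalW Fermat.Agent.Classic Fermat.Agent.Cor.HW
open scoped WeierstrassCurve.Affine Matrix

/-- An eigenvector with eigenvalue the determinant: the matrix acts trivially on the quotient. -/
lemma exists_smul_of_det {k : Type} [Field k] {X : M2 k} {v : Fin 2 → k} (hv : v ≠ 0)
    (h0 : X.det ≠ 0) (h : X *ᵥ v = X.det • v) (w : Fin 2 → k) : ∃ c : k, X *ᵥ w - w = c • v := by
  have e0 := congrFun h 0
  have e1 := congrFun h 1
  simp only [Matrix.mulVec, dotProduct, Fin.sum_univ_two, Pi.smul_apply, smul_eq_mul] at e0 e1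
  have key : v 0 * ((X *ᵥ w - w) 1) = v 1 * ((X *ᵥ w - w) 0) := by
    simp only [Pi.sub_apply, Matrix.mulVec, dotProduct, Fin.sum_univ_two]
    apply mul_left_cancel₀ h0
    have hd := X.det_fin_two
    set D := X.det with hD
    linear_combination (-(X 1 0 * w 0 + X 1 1 * w 1)) * e0 + (X 0 0 * w 0 + X 0 1 * w 1) * e1 +
      (v 1 * w 0 - v 0 * w 1) * hd
  by_cases hv0 : v 0 = 0
  · have hv1 : v 1 ≠ 0 := fun h1 => hv (by funext i; fin_cases i; exacts [hv0, h1])
    refine ⟨(X *ᵥ w - w) 1 / v 1, ?_⟩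
    funext i
    fin_cases i
    · rw [hv0, zero_mul] at key
      have h2 := (mul_eq_zero.mp key.symm).resolve_left hv1
      simp only [Fin.zero_eta, Pi.smul_apply, smul_eq_mul, hv0, mul_zero]
      exact h2
    · simp only [Fin.mk_one, Pi.smul_apply, smul_eq_mul]
      rw [div_mul_cancel₀ _ hv1]
  · refine ⟨(X *ᵥ w - w) 0 / v 0, ?_⟩
    funext i
    fin_cases i
    · simp only [Fin.zero_eta, Pi.smul_apply, smul_eq_mul]
      rw [div_mul_cancel₀ _ hv0]
    · simp only [Fin.mk_one, Pi.smul_apply, smul_eq_mul]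
      rw [div_mul_eq_mul_div, eq_div_iff hv0]
      linear_combination key

/-- **A semistable curve with reducible mod `p` representation, `p` odd, has a rational point of
order `p` or a stable subgroup of order `p` with trivial quotient.** -/
theorem exists_point_or_line {W : WeierstrassCurve ℤ} (hΔ : W.Δ ≠ 0) (hW : W.IsSemistableModel)
    {p : ℕ} (hp : p.Prime) (hp2 : p ≠ 2) (hred : ¬ W.ModRepIsIrreducible p) :
    (∃ Q : ((W.map (Int.castRingHom ℚ))⁄(AlgebraicClosure ℚ)).Point, addOrderOf Q = p ∧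
      ∀ σ : AlgebraicClosure ℚ ≃ₐ[ℚ] AlgebraicClosure ℚ, σ • Q = Q) ∨
    (∃ L : AddSubgroup ((W.map (Int.castRingHom ℚ))⁄(AlgebraicClosure ℚ)).Point,
      Nat.card L = p ∧
      (∀ σ : AlgebraicClosure ℚ ≃ₐ[ℚ] AlgebraicClosure ℚ, ∀ x ∈ L, σ • x ∈ L) ∧
      ∀ x, p • x = 0 →
        ∀ σ : AlgebraicClosure ℚ ≃ₐ[ℚ] AlgebraicClosure ℚ, σ • x - x ∈ L) := by
  have hF : Fact p.Prime := ⟨hp⟩
  obtain ⟨e, he⟩ := exists_equiv p hΔ
  obtain ⟨v, hv, hstab⟩ := exists_stable_of_reducible hΔ hred
  have hx0 : e.symm v ≠ 0 := by simpa using hv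
  rcases fixed_or_trivial_quotient hΔ hW hp2 hv hstab with h | h
  · left
    refine ⟨(e.symm v).1, ?_, fun σ => ?_⟩
    · have h1 : p • (e.symm v).1 = 0 := (mem_torsionBy_nat_iff p _).mp (e.symm v).2
      exact addOrderOf_eq_prime h1 fun h2 => hx0 (Subtype.ext h2)
    · have h1 : σ • e.symm v = e.symm v := by
        apply e.injective
        rw [he, LinearEquiv.apply_symm_apply]
        exact h σ
      exact congrArg Subtype.val h1
  · right
    let S := Submodule.span (ZMod p) {e.symm v}
    have hS : Module.finrank (ZMod p) S = 1 := finrank_span_singleton hx0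
    let L : AddSubgroup ((W.map (Int.castRingHom ℚ))⁄(AlgebraicClosure ℚ)).Point :=
      S.toAddSubgroup.map (Submodule.torsionBy ℤ
        ((W.map (Int.castRingHom ℚ))⁄(AlgebraicClosure ℚ)).Point (p : ℕ)).subtype.toAddMonoidHom
    have hmem : ∀ y, y ∈ S → y.1 ∈ L := fun y hy => ⟨y, hy, rfl⟩
    refine ⟨L, ?_, ?_, fun x hx σ => ?_⟩
    · have h1 : Nat.card L = Nat.card S := by
        refine (Nat.card_congr ?_).symm
        exact (S.toAddSubgroup.equivMapOfInjective _ Subtype.val_injective).toEquiv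
      rw [h1, Module.natCard_eq_pow_finrank (K := ZMod p) (V := S), hS, pow_one, Nat.card_zmod]
    · rintro σ x ⟨y, hy, rfl⟩
      refine hmem (σ • y) ?_
      obtain ⟨c, rfl⟩ := Submodule.mem_span_singleton.mp hy
      obtain ⟨a, ha⟩ := hstab σ
      refine Submodule.mem_span_singleton.mpr ⟨c * a, ?_⟩
      apply e.injective
      rw [he, map_smul, map_smul, LinearEquiv.apply_symm_apply, Matrix.mulVec_smul, mul_smul]
      congr 1
      exact ha.symm
    · let y : Submodule.torsionBy ℤ
        ((W.map (Int.castRingHom ℚ))⁄(AlgebraicClosure ℚ)).Point (p : ℕ) :=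
        ⟨x, (mem_torsionBy_nat_iff p _).mpr hx⟩
      refine hmem (σ • y - y) ?_
      have hdet : (mr hΔ p σ).det ≠ 0 := by
        have h1 : IsUnit (mr hΔ p σ).det :=
          (Matrix.isUnit_iff_isUnit_det _).mp ((repP p hΔ σ).isUnit)
        exact h1.ne_zero
      obtain ⟨c, hc⟩ := exists_smul_of_det hv hdet (h σ).1 (e y)
      refine Submodule.mem_span_singleton.mpr ⟨c, ?_⟩
      apply e.injective
      rw [map_smul, LinearEquiv.apply_symm_apply, map_sub, he]
      exact hc.symm

end Fermat.Agent.Cor.Mazur
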