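import Fermat.Agent.Corollaries.K1.Inputs
import Fermat.Agent.Corollaries.Mazur.Chars
import Fermat.Agent.Torsion.Card

/-!
# Irreducibility of the mod `p` representation of semistable curves

From `Mazur.exists_point_or_line`: if `W[p]` is reducible then `W`, or the quotient of `W` by a
stable line, has a point of order `p` fixed by Galois.
-/

set_option autoImplicit false

noncomputable section

open WeierstrassCurve WeierstrassCurve.Affine

namespace Fermat.Agent.Cor.Mazur

open Fermat.Agent.Cor.K1 (Gam Pts Quotients)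

local notation "ℚbar" => AlgebraicClosure ℚ

/-- There are no points of order `p` fixed by Galois, on any elliptic curve over `ℚ`. -/
def NoFixedPoint (p : ℕ) : Prop :=
  ∀ (E : WeierstrassCurve ℚ) [E.IsElliptic] (P : Pts E), (∀ σ : Gam, σ • P = P) → addOrderOf P ≠ p

/-- **Irreducibility** from the absence of fixed points of order `p` and the existence of quotients
by stable subgroups of order `p`. -/
theorem modRepIsIrreducible_of {p : ℕ} (hp : p.Prime) (hp2 : p ≠ 2) (HF : NoFixedPoint p)
    (HQ : Quotients p) {W : WeierstrassCurve ℤ} (hΔ : W.Δ ≠ 0) (hW : W.IsSemistableModel) :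
    W.ModRepIsIrreducible p := by
  by_contra hred
  have hF : Fact p.Prime := ⟨hp⟩
  set E : WeierstrassCurve ℚ := W.map (Int.castRingHom ℚ) with hE
  have hEΔ : E.Δ ≠ 0 := by
    rw [hE, WeierstrassCurve.map_Δ]
    simpa using hΔ
  have hEll : E.IsElliptic := ⟨isUnit_iff_ne_zero.mpr hEΔ⟩
  rcases exists_point_or_line hΔ hW hp hp2 hred with ⟨Q, hQ, hfix⟩ | ⟨L, hcard, hst, hquot⟩
  · exact HF E Q hfix hQ
  · obtain ⟨E', hE', φ, hsurj, hφ, hker⟩ := HQ E L hcard hst
    -- a point of `E[p]` outside `L`
    have hc : Nat.card {P : Pts E // p • P = 0} = p ^ 2 := by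
      have hΔ' : (E⁄ℚbar : WeierstrassCurve ℚbar).Δ ≠ 0 := by
        rw [show (E⁄ℚbar : WeierstrassCurve ℚbar) = E.map (algebraMap ℚ ℚbar) from rfl,
          WeierstrassCurve.map_Δ]
        simpa using hEΔ
      exact Torsion.card_torsion hΔ' (by exact_mod_cast hp.ne_zero)
    have hex : ∃ S : Pts E, p • S = 0 ∧ S ∉ L := by
      by_contra hcon
      push Not at hcon
      have hfinL : Finite L := Nat.finite_of_card_ne_zero (by rw [hcard]; exact hp.ne_zero)
      have h1 : Nat.card {P : Pts E // p • P = 0} ≤ Nat.card L :=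
        Nat.card_le_card_of_injective
          (fun x : {P : Pts E // p • P = 0} => (⟨x.1, hcon x.1 x.2⟩ : L))
          fun a b hab => Subtype.ext (congrArg (fun z : L => (z : Pts E)) hab)
      rw [hc, hcard] at h1
      nlinarith [hp.two_le]
    obtain ⟨S, hS, hSL⟩ := hex
    refine HF E' (φ S) (fun σ => ?_) (addOrderOf_eq_prime (by rw [← map_nsmul, hS, map_zero])
      fun h0 => hSL ?_)
    · rw [← hφ, ← sub_eq_zero, ← map_sub, ← AddMonoidHom.mem_ker, hker]
      exact hquot S hS σ
    · rw [← hker]
      exact AddMonoidHom.mem_ker.mpr h0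

end Fermat.Agent.Cor.Mazur
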