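import Fermat.Agent.Corollaries.Mazur.Defs
import Fermat.Agent.S41.VarChange
import Fermat.Agent.S13_NoRationalPoint

/-!
# Existence of the integral normal form at a rational point
-/

set_option autoImplicit false

noncomputable section

open WeierstrassCurve WeierstrassCurve.Affine

namespace Fermat.Agent.Cor.Mazur

open Fermat.Agent.Cor.K1 (Gam Pts)

local notation "ℚbar" => AlgebraicClosure ℚ

/-! ### Changes of variables, with coordinates -/

section Equiv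

variable {E E' : WeierstrassCurve ℚ} {C : VariableChange ℚ}

/-- The equivariant isomorphism on points attached to a change of variables, with coordinates. -/
theorem exists_equiv_coord (hΔ : E.Δ ≠ 0) (h : C • E = E') :
    ∃ e : Pts E' ≃+ Pts E, (∀ (σ : Gam) (P : Pts E'), e (σ • P) = σ • e P) ∧
      ∀ (x y : ℚbar) (hxy : (E'⁄ℚbar).Nonsingular x y), ∃ h',
        e (Point.some x y hxy) = Point.some
          (algebraMap ℚ ℚbar (C.u : ℚ) ^ 2 * x + algebraMap ℚ ℚbar C.r)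
          (algebraMap ℚ ℚbar (C.u : ℚ) ^ 3 * y + algebraMap ℚ ℚbar (C.u : ℚ) ^ 2 *
            algebraMap ℚ ℚbar C.s * x + algebraMap ℚ ℚbar C.t) h' := by
  have hΔ' : (E⁄ℚbar : WeierstrassCurve ℚbar).Δ ≠ 0 := by
    rw [show (E⁄ℚbar : WeierstrassCurve ℚbar) = E.map (algebraMap ℚ ℚbar) from rfl,
      WeierstrassCurve.map_Δ]
    simpa using hΔ
  have hV : C.map (algebraMap ℚ ℚbar) • (E⁄ℚbar : WeierstrassCurve ℚbar) =
      (E'⁄ℚbar : WeierstrassCurve ℚbar) := by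
    rw [show (E⁄ℚbar : WeierstrassCurve ℚbar) = E.map (algebraMap ℚ ℚbar) from rfl,
      show (E'⁄ℚbar : WeierstrassCurve ℚbar) = E'.map (algebraMap ℚ ℚbar) from rfl]
    rw [WeierstrassCurve.map_variableChange, h]
  obtain ⟨e, he⟩ := S41vc.exists_equiv (E⁄ℚbar : WeierstrassCurve ℚbar)
    (C.map (algebraMap ℚ ℚbar)) hΔ' hV
  have hu : ((C.map (algebraMap ℚ ℚbar)).u : ℚbar) = algebraMap ℚ ℚbar (C.u : ℚ) := rfl
  have hr : ((C.map (algebraMap ℚ ℚbar)).r : ℚbar) = algebraMap ℚ ℚbar C.r := rfl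
  have hs : ((C.map (algebraMap ℚ ℚbar)).s : ℚbar) = algebraMap ℚ ℚbar C.s := rfl
  have ht : ((C.map (algebraMap ℚ ℚbar)).t : ℚbar) = algebraMap ℚ ℚbar C.t := rfl
  refine ⟨e, fun σ P => ?_, fun x y hxy => ?_⟩
  · rcases P with _ | ⟨x, y, hP⟩
    · have h2 : e (0 : (E'⁄ℚbar).Point) = (0 : (E⁄ℚbar).Point) := map_zero e
      exact h2.trans (by rw [← Point.zero_def, h2]; rfl)
    · obtain ⟨h1, e1⟩ := he x y hP
      rw [e1, Point.algEquiv_smul_def, Point.algEquiv_smul_def, Point.map_some, Point.map_some]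
      obtain ⟨h3, e3⟩ := he (σ.toAlgHom x) (σ.toAlgHom y)
        ((Affine.baseChange_nonsingular E' σ.toAlgHom.injective ..).mpr hP)
      refine e3.trans ?_
      rw [Point.some.injEq]
      have hc : ∀ c : ℚ, σ.toAlgHom (algebraMap ℚ ℚbar c) = algebraMap ℚ ℚbar c := fun c =>
        σ.toAlgHom.commutes c
      rw [hu, hr, hs, ht]
      constructor
      · rw [map_add, map_mul, map_pow, hc, hc]
      · rw [map_add, map_add, map_mul, map_mul, map_mul, map_pow, map_pow, hc, hc, hc]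
  · exact he x y hxy

end Equiv

/-! ### The normal form -/

/-- `W` is an integral normal form of `E` at the point `(r, t)`. -/
def IsForm (E : WeierstrassCurve ℚ) (r t : ℚ) (W : WeierstrassCurve ℤ) : Prop :=
  W.a₄ = 0 ∧ W.a₆ = 0 ∧
    ∃ C : VariableChange ℚ, C.r = r ∧ C.t = t ∧ C • E = W.map (Int.castRingHom ℚ)

/-- Existence of an integral normal form. -/
theorem exists_isForm (E : WeierstrassCurve ℚ) {r t : ℚ} (heq : E.toAffine.Equation r t)
    (h2 : 2 * t + E.a₁ * r + E.a₃ ≠ 0) : ∃ W : WeierstrassCurve ℤ, IsForm E r t W := by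
  set s : ℚ := (3 * r ^ 2 + 2 * E.a₂ * r + E.a₄ - E.a₁ * t) / (2 * t + E.a₁ * r + E.a₃) with hs
  have hs' : s * (2 * t + E.a₁ * r + E.a₃) = 3 * r ^ 2 + 2 * E.a₂ * r + E.a₄ - E.a₁ * t := by
    rw [hs, div_mul_cancel₀ _ h2]
  rw [equation_iff] at heq
  -- the coefficients over `ℚ`
  set b₁ : ℚ := E.a₁ + 2 * s with hb₁
  set b₂ : ℚ := E.a₂ - s * E.a₁ + 3 * r - s ^ 2 with hb₂
  set b₃ : ℚ := E.a₃ + r * E.a₁ + 2 * t with hb₃
  -- a common denominator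
  set N : ℕ := b₁.den * b₂.den * b₃.den with hN
  have hN0 : N ≠ 0 := by
    rw [hN]
    exact mul_ne_zero (mul_ne_zero b₁.den_nz b₂.den_nz) b₃.den_nz
  have hNQ : (N : ℚ) ≠ 0 := by exact_mod_cast hN0
  have key : ∀ (b : ℚ) (k : ℕ), b.den ∣ N → ∃ z : ℤ, (z : ℚ) = b * (N : ℚ) ^ (k + 1) := by
    rintro b k ⟨m, hm⟩
    refine ⟨b.num * m * N ^ k, ?_⟩
    have h1 : (b.num : ℚ) = b * b.den := by
      rw [Rat.mul_den_eq_num]
    push_cast
    rw [h1, pow_succ]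
    have h3 : (N : ℚ) = b.den * m := by exact_mod_cast hm
    rw [show b * ↑b.den * (m : ℚ) * (N : ℚ) ^ k = b * ((N : ℚ) ^ k * (b.den * m)) by ring, ← h3]
  obtain ⟨z₁, h₁⟩ := key b₁ 0 ⟨b₂.den * b₃.den, by rw [hN]; ring⟩
  obtain ⟨z₂, h₂⟩ := key b₂ 1 ⟨b₁.den * b₃.den, by rw [hN]; ring⟩
  obtain ⟨z₃, h₃⟩ := key b₃ 2 ⟨b₁.den * b₂.den, by rw [hN]; ring⟩
  refine ⟨⟨z₁, z₂, z₃, 0, 0⟩, rfl, rfl, ⟨(Units.mk0 (N : ℚ) hNQ)⁻¹, r, s, t⟩, rfl, rfl, ?_⟩
  have huinv : (((Units.mk0 (N : ℚ) hNQ)⁻¹)⁻¹ : ℚˣ) = Units.mk0 (N : ℚ) hNQ := inv_inv _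
  ext
  · rw [variableChange_a₁]
    simp only [inv_inv, Units.val_mk0, map_a₁, Int.coe_castRingHom]
    rw [h₁, hb₁]; ring
  · rw [variableChange_a₂]
    simp only [inv_inv, Units.val_mk0, map_a₂, Int.coe_castRingHom]
    rw [h₂, hb₂]; ring
  · rw [variableChange_a₃]
    simp only [inv_inv, Units.val_mk0, map_a₃, Int.coe_castRingHom]
    rw [h₃, hb₃]; ring
  · rw [variableChange_a₄]
    simp only [inv_inv, Units.val_mk0, map_a₄, map_zero]
    linear_combination (-(N : ℚ) ^ 4) * hs'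
  · rw [variableChange_a₆]
    simp only [inv_inv, Units.val_mk0, map_a₆, map_zero]
    linear_combination (-(N : ℚ) ^ 6) * heq

/-- Division by a prime. -/
theorem IsForm.div {E : WeierstrassCurve ℚ} {r t : ℚ} {W : WeierstrassCurve ℤ}
    (h : IsForm E r t W) {ℓ : ℕ} (hℓ : ℓ.Prime) (h1 : (ℓ : ℤ) ∣ W.a₁) (h2 : (ℓ : ℤ) ^ 2 ∣ W.a₂)
    (h3 : (ℓ : ℤ) ^ 3 ∣ W.a₃) :
    ∃ W' : WeierstrassCurve ℤ, IsForm E r t W' ∧ W.Δ = (ℓ : ℤ) ^ 12 * W'.Δ := by
  obtain ⟨h4, h6, C, hr, ht, hC⟩ := h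
  obtain ⟨c₁, hc₁⟩ := h1
  obtain ⟨c₂, hc₂⟩ := h2
  obtain ⟨c₃, hc₃⟩ := h3
  have hℓQ : (ℓ : ℚ) ≠ 0 := by exact_mod_cast hℓ.ne_zero
  refine ⟨⟨c₁, c₂, c₃, 0, 0⟩, ⟨rfl, rfl, ⟨Units.mk0 (ℓ : ℚ) hℓQ, 0, 0, 0⟩ * C, ?_, ?_, ?_⟩, ?_⟩
  · rw [VariableChange.mul_def]
    simp [hr]
  · rw [VariableChange.mul_def]
    simp [ht]
  · rw [mul_smul, hC]
    ext
    · rw [variableChange_a₁]
      simp only [map_a₁, Int.coe_castRingHom, hc₁, Units.val_inv_eq_inv_val, Units.val_mk0]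
      push_cast
      field_simp
      ring
    · rw [variableChange_a₂]
      simp only [map_a₁, map_a₂, Int.coe_castRingHom, hc₂, Units.val_inv_eq_inv_val,
        Units.val_mk0]
      push_cast
      field_simp
      ring
    · rw [variableChange_a₃]
      simp only [map_a₁, map_a₃, Int.coe_castRingHom, hc₃, Units.val_inv_eq_inv_val,
        Units.val_mk0]
      push_cast
      field_simp
      ring
    · rw [variableChange_a₄]
      simp only [map_a₁, map_a₂, map_a₃, map_a₄, h4, map_zero]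
      ring
    · rw [variableChange_a₆]
      simp only [map_a₁, map_a₂, map_a₃, map_a₄, map_a₆, h4, h6, map_zero]
      ring
  · simp only [WeierstrassCurve.Δ, WeierstrassCurve.b₂, WeierstrassCurve.b₄, WeierstrassCurve.b₆,
      WeierstrassCurve.b₈, h4, h6, hc₁, hc₂, hc₃]
    ring

theorem IsForm.Δ_ne_zero {E : WeierstrassCurve ℚ} {r t : ℚ} {W : WeierstrassCurve ℤ}
    (h : IsForm E r t W) (hΔ : E.Δ ≠ 0) : W.Δ ≠ 0 := by
  obtain ⟨-, -, C, -, -, hC⟩ := h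
  intro h0
  have h1 : (W.map (Int.castRingHom ℚ)).Δ = 0 := by rw [WeierstrassCurve.map_Δ, h0, map_zero]
  rw [← hC, variableChange_Δ] at h1
  exact mul_ne_zero (pow_ne_zero _ (Units.ne_zero _)) hΔ h1

/-- A form of minimal discriminant. -/
theorem exists_isForm_min {E : WeierstrassCurve ℚ} (hΔ : E.Δ ≠ 0) {r t : ℚ}
    (heq : E.toAffine.Equation r t) (h2 : 2 * t + E.a₁ * r + E.a₃ ≠ 0) :
    ∃ W : WeierstrassCurve ℤ, IsForm E r t W ∧
      ∀ ℓ : ℕ, ℓ.Prime → ¬ ((ℓ : ℤ) ∣ W.a₁ ∧ (ℓ : ℤ) ^ 2 ∣ W.a₂ ∧ (ℓ : ℤ) ^ 3 ∣ W.a₃) := by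
  classical
  have hex : ∃ n : ℕ, ∃ W : WeierstrassCurve ℤ, IsForm E r t W ∧ W.Δ.natAbs = n := by
    obtain ⟨W, hW⟩ := exists_isForm E heq h2
    exact ⟨_, W, hW, rfl⟩
  obtain ⟨W, hW, hn⟩ := Nat.find_spec hex
  refine ⟨W, hW, fun ℓ hℓ ⟨h1, h2, h3⟩ => ?_⟩
  obtain ⟨W', hW', hΔ'⟩ := hW.div hℓ h1 h2 h3
  have h0 : W'.Δ ≠ 0 := hW'.Δ_ne_zero hΔ
  refine Nat.find_min hex (m := W'.Δ.natAbs) ?_ ⟨W', hW', rfl⟩
  rw [← hn, hΔ', Int.natAbs_mul, Int.natAbs_pow, Int.natAbs_natCast]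
  have h4 : 0 < W'.Δ.natAbs := Int.natAbs_pos.mpr h0
  have h5 : 1 < ℓ ^ 12 := Nat.one_lt_pow (by norm_num) hℓ.one_lt
  nlinarith

/-- **Existence of the normal form** at a rational point of prime order `p ≥ 3`. -/
theorem exists_normal (E : WeierstrassCurve ℚ) [E.IsElliptic] {p : ℕ} (hp : p.Prime)
    (hp2 : p ≠ 2) (P : Pts E) (hP : addOrderOf P = p) (hfix : ∀ σ : Gam, σ • P = P) :
    ∃ (W : WeierstrassCurve ℤ) (e : Pts E ≃+ Pt W),
      (∀ (σ : Gam) (x : Pts E), e (σ • x) = σ • e x) ∧ Normal p W (e P) := by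
  have hΔ : E.Δ ≠ 0 := E.isUnit_Δ.ne_zero
  rcases P with _ | ⟨x, y, hxy⟩
  · exfalso
    have h1 : addOrderOf (0 : Pts E) = p := hP
    rw [addOrderOf_zero] at h1
    exact hp.one_lt.ne h1
  -- the coordinates are rational
  have hσ : ∀ σ : Gam, σ x = x ∧ σ y = y := by
    intro σ
    have h1 := hfix σ
    rw [Point.algEquiv_smul_def, Point.map_some, Point.some.injEq] at h1
    exact h1
  obtain ⟨r, hr⟩ := S13five.exists_rat_of_fixed fun σ => (hσ σ).1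
  obtain ⟨t, ht⟩ := S13five.exists_rat_of_fixed fun σ => (hσ σ).2
  have heq : E.toAffine.Equation r t := by
    have h1 := hxy.1
    rw [← hr, ← ht] at h1
    exact (Affine.map_equation (W := E.toAffine) (f := algebraMap ℚ ℚbar)
      (algebraMap ℚ ℚbar).injective r t).mp h1
  have h2 : 2 * t + E.a₁ * r + E.a₃ ≠ 0 := by
    intro h0
    have h1 : (2 : ℕ) • (Point.some x y hxy : Pts E) = 0 := by
      rw [two_nsmul, Point.add_of_Y_eq rfl]
      rw [Affine.negY, ← hr, ← ht]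
      have h3 : algebraMap ℚ ℚbar (2 * t + E.a₁ * r + E.a₃) = 0 := by rw [h0, map_zero]
      have h4 : (E⁄ℚbar).a₁ = algebraMap ℚ ℚbar E.a₁ := rfl
      have h5 : (E⁄ℚbar).a₃ = algebraMap ℚ ℚbar E.a₃ := rfl
      rw [h4, h5]
      simp only [map_add, map_mul, map_ofNat] at h3
      linear_combination h3
    have h3 := addOrderOf_dvd_of_nsmul_eq_zero h1
    rw [hP] at h3
    exact hp2 ((Nat.prime_dvd_prime_iff_eq hp Nat.prime_two).mp h3)
  obtain ⟨W, hW, hmin⟩ := exists_isForm_min hΔ heq h2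
  have hΔW := hW.Δ_ne_zero hΔ
  obtain ⟨h4, h6, C, hCr, hCt, hC⟩ := hW
  obtain ⟨e, he, hc⟩ := exists_equiv_coord hΔ hC
  -- the origin
  have h00 : ((W.map (Int.castRingHom ℚ))⁄ℚbar).Nonsingular 0 0 := by
    have hΔ' : ((W.map (Int.castRingHom ℚ))⁄ℚbar : WeierstrassCurve ℚbar).Δ ≠ 0 := by
      rw [show ((W.map (Int.castRingHom ℚ))⁄ℚbar : WeierstrassCurve ℚbar) =
        (W.map (Int.castRingHom ℚ)).map (algebraMap ℚ ℚbar) from rfl, WeierstrassCurve.map_Δ,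
        WeierstrassCurve.map_Δ]
      simpa using hΔW
    refine (equation_iff_nonsingular_of_Δ_ne_zero hΔ').mp ?_
    rw [equation_zero]
    change algebraMap ℚ ℚbar (Int.castRingHom ℚ W.a₆) = 0
    rw [h6, map_zero, map_zero]
  obtain ⟨h', h0⟩ := hc 0 0 h00
  have hP0 : e (Point.some 0 0 h00) = Point.some x y hxy := by
    rw [h0, Point.some.injEq, hCr, hCt, hr, ht]
    constructor <;> ring
  have hP1 : e.symm (Point.some x y hxy) = Point.some 0 0 h00 := by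
    rw [← hP0, AddEquiv.symm_apply_apply]
  refine ⟨W, e.symm, fun σ z => ?_, hΔW, h4, h6, ⟨h00, hP1⟩, ?_, fun σ => ?_, hmin⟩
  · apply e.injective
    rw [he, AddEquiv.apply_symm_apply, AddEquiv.apply_symm_apply]
  · rw [← hP]
    exact addOrderOf_injective e.symm.toAddMonoidHom e.symm.injective _
  · apply e.injective
    rw [he, AddEquiv.apply_symm_apply]
    exact hfix σ

end Fermat.Agent.Cor.Mazur
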