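import Fermat.Agent.Corollaries.K1.Inputs
import Fermat.Agent.Corollaries.K1.QuotientsH2
import Fermat.Agent.Corollaries.Mazur.Normal
import Fermat.Agent.Corollaries.Mazur.Semi
import Fermat.Agent.Corollaries.Mazur.Comp
import Fermat.Agent.Corollaries.Mazur.Cusp
import Fermat.Agent.Corollaries.Mazur.Irred

/-!
# Mazur's theorem on rational points of prime order

* `mazur`: an elliptic curve over `ℚ` has no rational point of order `p`, for `p = 11` and for
  every prime `p ≥ 17`.
* `prime_dvd_addOrderOf`: the order of a rational torsion point has no prime factor outside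
  `{2, 3, 5, 7, 13}`.
* `modRepIsIrreducible`: for the same `p` the mod `p` representation of a semistable curve is
  irreducible; `not_exists_stable_subgroup`: it has no rational isogeny of degree `p`.
-/

set_option autoImplicit false

noncomputable section

open WeierstrassCurve WeierstrassCurve.Affine

namespace Fermat.Agent.Cor.Mazur

open Fermat.Agent.Cor.K1 (Gam Pts Quotients GoodModel no_fixed_point_of)

/-- A pair `(E, P)`, `P` a rational point of order `p`, has a semistable model on which `P` is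
outside the identity component at all bad primes. -/
theorem goodModel {p : ℕ} (hp : p.Prime) (h : p = 11 ∨ 17 ≤ p) : GoodModel p := by
  intro E _ P hP hfix
  obtain ⟨W, e, he, hN⟩ := exists_normal E hp (by omega) P hP hfix
  have hss : W.IsSemistableModel := hN.isSemistableModel_of hp (by omega) fun ℓ hℓ h3 hc =>
    hN.not_cusp hp (by omega) hℓ h3 hc
  exact ⟨W, e, he, hN.hΔ, hss, fun ℓ hℓ hd A hA => hN.notMem_of hss hp h hℓ hd hA⟩

/-- There are no points of order `p` over `ℚ̄` fixed by Galois. -/
theorem noFixedPoint {p : ℕ} (hp : p.Prime) (h : p = 11 ∨ 17 ≤ p) : NoFixedPoint p :=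
  fun E _ P hfix => no_fixed_point_of hp (by omega) (goodModel hp h)
    (K1.quotients hp (by omega)) E P hfix

/-- An irreducible mod `p` representation has no stable subgroup of order `p`. -/
theorem not_stable_of_irreducible {p : ℕ} (hp : p.Prime) {W : WeierstrassCurve ℤ} (hΔ : W.Δ ≠ 0)
    (hirr : W.ModRepIsIrreducible p) (L : AddSubgroup (Pt W)) (hL : Nat.card L = p)
    (hst : ∀ σ : Gam, ∀ x ∈ L, σ • x ∈ L) : False := by
  have hF : Fact p.Prime := ⟨hp⟩
  have hfin : Finite L := Nat.finite_of_card_ne_zero (by rw [hL]; exact hp.ne_zero)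
  have htors : ∀ x ∈ L, p • x = 0 := by
    intro x hx
    have h1 : p • (⟨x, hx⟩ : L) = 0 := by
      rw [← hL]
      exact card_nsmul_eq_zero'
    exact congrArg (fun z : L => (z : Pt W)) h1
  have hc : Nat.card {P : Pt W // p • P = 0} = p ^ 2 := by
    have hΔ' : ((W.map (Int.castRingHom ℚ))⁄(AlgebraicClosure ℚ) :
        WeierstrassCurve (AlgebraicClosure ℚ)).Δ ≠ 0 := by
      rw [show ((W.map (Int.castRingHom ℚ))⁄(AlgebraicClosure ℚ) :
        WeierstrassCurve (AlgebraicClosure ℚ)) =
        (W.map (Int.castRingHom ℚ)).map (algebraMap ℚ (AlgebraicClosure ℚ)) from rfl,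
        WeierstrassCurve.map_Δ, WeierstrassCurve.map_Δ]
      simpa using hΔ
    exact Torsion.card_torsion hΔ' (by exact_mod_cast hp.ne_zero)
  -- the submodule attached to `L`
  let V := Submodule.torsionBy ℤ (Pt W) (p : ℕ)
  have hV : ∀ {x : Pt W}, x ∈ V ↔ p • x = 0 := by
    intro x
    rw [Submodule.mem_torsionBy_iff, natCast_zsmul]
  let N : Submodule (ZMod p) V := AddSubgroup.toZModSubmodule p (L.comap V.toAddSubgroup.subtype)
  have hN : ∀ {x : V}, x ∈ N ↔ (x : Pt W) ∈ L := Iff.rfl
  rcases hirr.2 N (fun σ x hx => hst σ x hx) with h | h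
  · have h1 : Nat.card L ≤ 1 := by
      refine Finite.card_le_one_iff_subsingleton.mpr ⟨fun a b => ?_⟩
      have h2 : ∀ a : L, (a : Pt W) = 0 := by
        intro a
        have h3 : (⟨a.1, hV.mpr (htors _ a.2)⟩ : V) ∈ N := a.2
        rw [h, Submodule.mem_bot] at h3
        exact congrArg (fun z : V => (z : Pt W)) h3
      exact Subtype.ext ((h2 a).trans (h2 b).symm)
    rw [hL] at h1
    exact absurd h1 (not_le.mpr hp.one_lt)
  · have h1 : Nat.card {P : Pt W // p • P = 0} ≤ Nat.card L :=
      Nat.card_le_card_of_injective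
        (fun x : {P : Pt W // p • P = 0} => (⟨x.1, by
          have h2 : (⟨x.1, hV.mpr x.2⟩ : V) ∈ N := by
            rw [h]
            exact Submodule.mem_top
          exact h2⟩ : L))
        fun a b hab => Subtype.ext (congrArg (fun z : L => (z : Pt W)) hab)
    rw [hc, hL] at h1
    nlinarith [hp.two_le]

end Fermat.Agent.Cor.Mazur

namespace Fermat.Agent.Cor

open Fermat.Agent.Cor.Mazur

/-- **Mazur's theorem** (1977), points of prime order: an elliptic curve over `ℚ` has no rational
point of order `p` for `p = 11` and for every prime `p ≥ 17`. -/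
theorem mazur (E : WeierstrassCurve ℚ) [E.IsElliptic] {p : ℕ} (hp : p.Prime)
    (h : p = 11 ∨ 17 ≤ p) (P : E.toAffine.Point) : addOrderOf P ≠ p :=
  K1.mazur_of hp (by omega) (goodModel hp h) (K1.quotients hp (by omega)) E P

/-- The order of a rational torsion point has no prime factors besides `2`, `3`, `5`, `7`, `13`. -/
theorem prime_dvd_addOrderOf (E : WeierstrassCurve ℚ) [E.IsElliptic] {P : E.toAffine.Point}
    (hP : addOrderOf P ≠ 0) {q : ℕ} (hq : q.Prime) (hd : q ∣ addOrderOf P) :
    q ∈ ({2, 3, 5, 7, 13} : Finset ℕ) := by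
  obtain ⟨m, hm⟩ := hd
  have hm0 : m ≠ 0 := fun h0 => hP (by rw [hm, h0, mul_zero])
  have h1 : addOrderOf (m • P) = q := by
    rw [addOrderOf_nsmul_of_dvd hm0 ⟨q, by rw [hm, mul_comm]⟩, hm,
      Nat.mul_div_cancel _ (Nat.pos_of_ne_zero hm0)]
  by_contra hcon
  have key : ∀ q < 17, q.Prime → q ≠ 11 → q ∈ ({2, 3, 5, 7, 13} : Finset ℕ) := by decide
  have h2 : q = 11 ∨ 17 ≤ q := by
    by_contra h3
    push Not at h3
    exact hcon (key q h3.2 hq h3.1)
  exact mazur E hq h2 (m • P) h1

/-- **Irreducibility** (Mazur, Serre): the mod `p` representation of a semistable elliptic curve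
over `ℚ` is irreducible for `p = 11` and for every prime `p ≥ 17`. -/
theorem modRepIsIrreducible {p : ℕ} (hp : p.Prime) (h : p = 11 ∨ 17 ≤ p) {W : WeierstrassCurve ℤ}
    (hΔ : W.Δ ≠ 0) (hW : W.IsSemistableModel) : W.ModRepIsIrreducible p :=
  modRepIsIrreducible_of hp (by omega) (noFixedPoint hp h) (K1.quotients hp (by omega)) hΔ hW

/-- A semistable elliptic curve over `ℚ` has no rational isogeny of degree `p`, for `p = 11` and
for every prime `p ≥ 17`: no subgroup of order `p` of its points over `ℚ̄` is stable under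
Galois. -/
theorem not_exists_stable_subgroup {p : ℕ} (hp : p.Prime) (h : p = 11 ∨ 17 ≤ p)
    {W : WeierstrassCurve ℤ} (hΔ : W.Δ ≠ 0) (hW : W.IsSemistableModel) :
    ¬ ∃ L : AddSubgroup ((W.map (Int.castRingHom ℚ))⁄(AlgebraicClosure ℚ)).Point,
      Nat.card L = p ∧ ∀ σ : AlgebraicClosure ℚ ≃ₐ[ℚ] AlgebraicClosure ℚ, ∀ x ∈ L, σ • x ∈ L :=
  fun ⟨L, hL, hst⟩ => not_stable_of_irreducible hp hΔ (modRepIsIrreducible hp h hΔ hW) L hL hst

end Fermat.Agent.Cor
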