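import Fermat.Agent.Corollaries.K1.Tower

/-!
# The integral normal form at a rational point of prime order

A rational point `P` of order at least `4` on an elliptic curve over `ℚ` can be moved to `(0, 0)`
with tangent `y = 0`; the equation becomes `y² + a₁ x y + a₃ y = x³ + a₂ x²`.  We choose `a₁`, `a₂`,
`a₃` integral and minimal for scaling.
-/

set_option autoImplicit false

noncomputable section

open WeierstrassCurve WeierstrassCurve.Affine

namespace Fermat.Agent.Cor.Mazur

open Fermat.Agent.Cor.K1 (Gam Pts)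

/-- The points over `ℚ̄` of a curve with integral coefficients. -/
abbrev Pt (W : WeierstrassCurve ℤ) : Type := Pts (W.map (Int.castRingHom ℚ))

/-- `W` is an integral normal form of a curve at its rational point `Q = (0, 0)` of order `p`,
minimal for scaling. -/
structure Normal (p : ℕ) (W : WeierstrassCurve ℤ) (Q : Pt W) : Prop where
  hΔ : W.Δ ≠ 0
  h4 : W.a₄ = 0
  h6 : W.a₆ = 0
  hQ : ∃ h, Q = Point.some 0 0 h
  ord : addOrderOf Q = p
  fix : ∀ σ : Gam, σ • Q = Q
  min : ∀ ℓ : ℕ, ℓ.Prime → ¬ ((ℓ : ℤ) ∣ W.a₁ ∧ (ℓ : ℤ) ^ 2 ∣ W.a₂ ∧ (ℓ : ℤ) ^ 3 ∣ W.a₃)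

end Fermat.Agent.Cor.Mazur
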