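import Fermat.Agent.Classic.Rep3
import Fermat.Agent.S14
import Fermat.Agent.EC.MultOrdA
import Fermat.Agent.EC.MultCount
import Fermat.Agent.EC.MultInertia
import Fermat.Agent.EC.FlatTors
import Fermat.Agent.Mazur.Radical
import Fermat.Agent.S12.AtP

/-!
# A rational point of order `p` splits off `E[p]`

Let `W` be a semistable integral model and `P` a rational point of prime order `p ≥ 3` which is not
in the zero component at any place of multiplicative reduction. Then `E[p]` is unramified outside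
`p` and split over `⟨P⟩` at `p`, hence (statement S14) `E[p] = ⟨P⟩ ⊕ C` with `C` stable under
Galois.
-/

set_option autoImplicit false

noncomputable section

open WeierstrassCurve WeierstrassCurve.Affine WeierstrassCurve.Affine.Point
open Fermat.Agent.ECRed Fermat.Agent.ECFrob Fermat.Agent.Tate ExtCitation
open scoped WeierstrassCurve.Affine Pointwise

namespace Fermat.Agent.Cor.Mazur

local notation "ℚbar" => AlgebraicClosure ℚ
local notation "GQ" => (AlgebraicClosure ℚ ≃ₐ[ℚ] AlgebraicClosure ℚ)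

/-- The `p`-torsion. -/
abbrev Vt (W : WeierstrassCurve ℤ) (p : ℕ) : Type :=
  Submodule.torsionBy ℤ ((W.map (Int.castRingHom ℚ))⁄(AlgebraicClosure ℚ)).Point (p : ℕ)

/-! ### Linear algebra -/

/-- A `2 × 2` matrix with a fixed vector `v ≠ 0`: `M w - det M • w` is a multiple of `v`. -/
theorem exists_smul_eq {K : Type*} [Field K] (M : Matrix (Fin 2) (Fin 2) K) {v : Fin 2 → K}
    (hv : v ≠ 0) (hM : M.mulVec v = v) (w : Fin 2 → K) :
    ∃ t : K, M.mulVec w - M.det • w = t • v := by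
  have h0 : M 0 0 * v 0 + M 0 1 * v 1 = v 0 := by
    have := congrFun hM 0
    simpa [Matrix.mulVec, dotProduct, Fin.sum_univ_two] using this
  have h1 : M 1 0 * v 0 + M 1 1 * v 1 = v 1 := by
    have := congrFun hM 1
    simpa [Matrix.mulVec, dotProduct, Fin.sum_univ_two] using this
  set u : Fin 2 → K := M.mulVec w - M.det • w with hu
  have e0 : u 0 = M 0 0 * w 0 + M 0 1 * w 1 - (M 0 0 * M 1 1 - M 0 1 * M 1 0) * w 0 := by
    rw [hu, Pi.sub_apply, Pi.smul_apply, smul_eq_mul, Matrix.det_fin_two, Matrix.mulVec,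
      dotProduct, Fin.sum_univ_two]
  have e1 : u 1 = M 1 0 * w 0 + M 1 1 * w 1 - (M 0 0 * M 1 1 - M 0 1 * M 1 0) * w 1 := by
    rw [hu, Pi.sub_apply, Pi.smul_apply, smul_eq_mul, Matrix.det_fin_two, Matrix.mulVec,
      dotProduct, Fin.sum_univ_two]
  have key : u 0 * v 1 = u 1 * v 0 := by
    rw [e0, e1]
    linear_combination (M 1 0 * w 0 + M 1 1 * w 1) * h0 - (M 0 0 * w 0 + M 0 1 * w 1) * h1
  by_cases hv0 : v 0 = 0
  · have hv1 : v 1 ≠ 0 := by
      intro h
      exact hv (funext fun i => by fin_cases i <;> assumption)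
    refine ⟨u 1 / v 1, funext fun i => ?_⟩
    fin_cases i
    · change u 0 = u 1 / v 1 * v 0
      rw [hv0, mul_zero] at key ⊢
      exact (mul_eq_zero.mp key).resolve_right hv1
    · change u 1 = u 1 / v 1 * v 1
      rw [div_mul_cancel₀ _ hv1]
  · refine ⟨u 0 / v 0, funext fun i => ?_⟩
    fin_cases i
    · change u 0 = u 0 / v 0 * v 0
      rw [div_mul_cancel₀ _ hv0]
    · change u 1 = u 0 / v 0 * v 1
      rw [div_mul_eq_mul_div, key, mul_div_cancel_right₀ _ hv0]

variable {W : WeierstrassCurve ℤ} {p : ℕ} [hp : Fact p.Prime]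

theorem smulComm : SMulCommClass GQ (ZMod p) (Vt W p) :=
  ⟨fun σ c x => ZMod.map_smul (DistribSMul.toAddMonoidHom _ σ) c x⟩

theorem finrank_Vt (hΔ : W.Δ ≠ 0) : Module.finrank (ZMod p) (Vt W p) = 2 := finrank_rat hΔ

theorem card_Vt (hΔ : W.Δ ≠ 0) : Nat.card (Vt W p) = p ^ 2 :=
  card_torsionBy_EQ hΔ hp.out.ne_zero

/-- `σ x - χ(σ) x ∈ ⟨P⟩` for a fixed point `P ≠ 0`. -/
theorem smul_sub_mem_span (hΔ : W.Δ ≠ 0) {P : Vt W p} (hP : P ≠ 0) {σ : GQ} (hσ : σ • P = P)
    (x : Vt W p) : σ • x - cycMod p σ • x ∈ Submodule.span (ZMod p) {P} := by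
  obtain ⟨e, he⟩ := Classic.exists_equiv p hΔ
  have hv : e P ≠ 0 := fun h => hP ((LinearEquiv.map_eq_zero_iff _).mp h)
  have hM : ((Classic.repP p hΔ σ : GL (Fin 2) (ZMod p)) : Matrix (Fin 2) (Fin 2) (ZMod p)).mulVec
      (e P) = e P := by rw [← he, hσ]
  obtain ⟨t, ht⟩ := exists_smul_eq _ hv hM (e x)
  rw [Submodule.mem_span_singleton]
  refine ⟨t, e.injective ?_⟩
  rw [e.map_smul t P, ← ht, map_sub, he σ x, e.map_smul (cycMod p σ) x, Classic.det_repP]

/-- The cyclotomic exponent. -/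
theorem cycloExp_cast (σ : GQ) : (cycloExp p σ : ZMod p) = cycMod p σ := by
  have : NeZero p := ⟨hp.out.ne_zero⟩
  exact ZMod.natCast_zmod_val _

/-- Two fixed points of which neither is a multiple of the other: `σ` is trivial. -/
theorem smul_eq_of_two (hΔ : W.Δ ≠ 0) {P T : Vt W p} (hP : P ≠ 0)
    (hT : T ∉ Submodule.span (ZMod p) {P}) {σ : GQ} (hσ : σ • P = P) (hσT : σ • T = T)
    (x : Vt W p) : σ • x = x := by
  have := smulComm (W := W) (p := p)
  have hli : LinearIndependent (ZMod p) ![P, T] := by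
    rw [LinearIndependent.pair_iff' hP]
    intro a ha
    exact hT (Submodule.mem_span_singleton.mpr ⟨a, ha⟩)
  have h1 := hli.span_eq_top_of_card_eq_finrank (by rw [Fintype.card_fin, finrank_Vt hΔ])
  have h2 : x ∈ Submodule.span (ZMod p) (Set.range ![P, T]) := by rw [h1]; trivial
  rw [Matrix.range_cons, Matrix.range_cons, Matrix.range_empty, Set.union_empty,
    Set.singleton_union, Submodule.mem_span_pair] at h2
  obtain ⟨a, b, rfl⟩ := h2
  rw [smul_add, smul_comm σ a P, smul_comm σ b T, hσ, hσT]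

theorem card_span {P : Vt W p} (hP : P ≠ 0) :
    Nat.card (Submodule.span (ZMod p) {P}) = p := by
  rw [← Nat.card_congr (LinearEquiv.toSpanNonzeroSingleton (ZMod p) (Vt W p) P hP).toEquiv,
    Nat.card_zmod]

/-! ### Places -/

/-- A multiple `c P ∈ G` with `c ≠ 0` gives `P ∈ G`. -/
theorem mem_of_smul_mem {M : Type*} [AddCommGroup M] [Module (ZMod p) M] (G : AddSubgroup M)
    {c : ZMod p} (hc : c ≠ 0) {P : M} (h : c • P ∈ G) : P ∈ G := by
  have h1 : c⁻¹ • (c • P) ∈ G := by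
    rw [← ZMod.natCast_zmod_val (c⁻¹), Nat.cast_smul_eq_nsmul]
    exact G.nsmul_mem h _
  rwa [smul_smul, inv_mul_cancel₀ hc, one_smul] at h1

open scoped Classical in
/-- **Unramified at the multiplicative places where `P` is not in the zero component.** -/
theorem smul_eq_of_mult (hp2 : p ≠ 2) {q : ℕ} (hW : IsMultAt W q) (hne : q ≠ p)
    {A : ValuationSubring ℚbar} (hA : A.LiesOverPrime q) {σ : GQ}
    (hσ : σ ∈ A.inertiaSubgroupIn ℚ) {P : Vt W p} (hσP : σ • P = P)
    (hP : ¬ W.InZeroComponentAt A (P : ((W.map (Int.castRingHom ℚ))⁄ℚbar).Point))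
    (x : Vt W p) : σ • x = x := by
  have hE := redEk W A
  have hpl := isPlace_valuationSubring A
  have hv : A.valuation ((p : ℕ) : ℚbar) = 1 := by
    have := Fermat.Agent.Tate.val_prime_eq_one p hp.out hW.prime hne hA 1
    rwa [pow_one] at this
  have hP0 : P ≠ 0 := by
    rintro rfl
    exact hP (Or.inl rfl)
  have hPE : (P : (EQ W).Point) ∉ E0 hE hpl := by
    intro h
    apply hP
    rw [inZeroComponentAt_iff]
    exact mem_E0_iff.mp h
  -- a non-zero point of `E₀[p]`
  have h1 := pow_le_card_E0tors (W := W) (A := A) hW hA hp2 1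
  rw [pow_one] at h1
  obtain ⟨T, hT0⟩ : ∃ T : E0tors W A p, T ≠ 0 := by
    by_contra hcon
    push Not at hcon
    have : Nat.card (E0tors W A p) ≤ 1 := by
      have : Subsingleton (E0tors W A p) := ⟨fun a b => by rw [hcon a, hcon b]⟩
      exact Finite.card_le_one_iff_subsingleton.mpr inferInstance
    have := hp.out.two_le
    omega
  have hTE : ((T : Vt W p) : (EQ W).Point) ∈ E0 hE hpl := mem_E0tors.mp T.2
  have hT0' : (T : Vt W p) ≠ 0 := fun h => hT0 (Subtype.ext h)
  refine smul_eq_of_two (T := (T : Vt W p)) hW.ne hP0 ?_ hσP ?_ x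
  · intro h
    obtain ⟨c, hc⟩ := Submodule.mem_span_singleton.mp h
    have hc0 : c ≠ 0 := by
      rintro rfl
      rw [zero_smul] at hc
      exact hT0' hc.symm
    apply hPE
    have h2 : P ∈ E0tors W A p := by
      refine mem_of_smul_mem _ hc0 ?_
      rw [hc]
      exact T.2
    exact mem_E0tors.mp h2
  · obtain ⟨Q, hQ⟩ := mem_E0_iff.mp hTE
    refine Subtype.ext ?_
    exact smul_eq_of_torsion_of_mem_E0 hσ hv hE hQ (mem_torsionBy_nat.mp (T : Vt W p).2)

open scoped Classical in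
/-- The kernel of reduction in `E[p]`. -/
def kerRed (W : WeierstrassCurve ℤ) (p : ℕ) [Fact p.Prime] (A : ValuationSubring ℚbar) :
    Submodule (ZMod p) (Vt W p) :=
  AddSubgroup.toZModSubmodule p ((E1 (redEk W A) (isPlace_valuationSubring A)).comap
    (Submodule.torsionBy ℤ (EQ W).Point (p : ℤ)).subtype.toAddMonoidHom)

open scoped Classical in
theorem mem_kerRed {A : ValuationSubring ℚbar} {x : Vt W p} :
    x ∈ kerRed W p A ↔
      (x : (EQ W).Point) = 0 ∨ 1 < A.valuation (xc (x : (EQ W).Point)) := by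
  have h1 : x ∈ kerRed W p A ↔
      (x : (EQ W).Point) ∈ E1 (redEk W A) (isPlace_valuationSubring A) := Iff.rfl
  rw [h1]
  exact isRed_zero_right_iff

theorem smul_mem_kerRed {A : ValuationSubring ℚbar} {σ : GQ}
    (hσ : σ ∈ A.decompositionSubgroup ℚ) {x : Vt W p} (hx : x ∈ kerRed W p A) :
    σ • x ∈ kerRed W p A := by
  rw [mem_kerRed] at hx ⊢
  have h1 : ((σ • x : Vt W p) : (EQ W).Point) = σ • (x : (EQ W).Point) := rfl
  rw [h1]
  rcases hx with h | h
  · left
    rw [h]
    rfl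
  · right
    rw [xc_smul, ← not_le, A.valuation_le_one_iff, mem_of_mem_decomposition hσ,
      ← A.valuation_le_one_iff, not_le]
    exact h

theorem notMem_kerRed (hp2 : p ≠ 2) {A : ValuationSubring ℚbar} (hA : A.LiesOverPrime p)
    {P : Vt W p} (hP0 : P ≠ 0) (hfix : ∀ σ : GQ, σ • P = P) : P ∉ kerRed W p A := by
  intro h
  rw [mem_kerRed] at h
  have hP0' : (P : (EQ W).Point) ≠ 0 := fun h => hP0 (Subtype.ext h)
  rcases h with h | h
  · exact hP0' h
  · have h1 := S12val.xc_mem_of_fixed (W := W) (Q := (P : (EQ W).Point)) hp.out hp2 hA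
      (fun σ => congrArg Subtype.val (hfix σ)) (mem_torsionBy_nat.mp P.2) hP0'
    rw [← A.valuation_le_one_iff] at h1
    exact absurd h (not_lt.mpr h1)

/-- inertia at `p` moves the `p`-th roots of unity. -/
theorem exists_inertia_cycMod_ne (hp2 : p ≠ 2) {A : ValuationSubring ℚbar}
    (hA : A.LiesOverPrime p) : ∃ σ ∈ A.inertiaSubgroupIn ℚ, cycMod p σ ≠ 1 := by
  obtain ⟨ζ, hζ⟩ := exists_primitiveRoot p
  have h1 := Fermat.Agent.Mazur.not_fixed_of_isPrimitiveRoot hp.out hp2 hA hζ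
  push Not at h1
  obtain ⟨σ, hσ, hne⟩ := h1
  refine ⟨σ, hσ, fun h => hne ?_⟩
  rw [cycMod_spec p σ hζ.pow_eq_one, h]
  have : NeZero p := ⟨hp.out.ne_zero⟩
  have : Fact (1 < p) := ⟨hp.out.one_lt⟩
  rw [ZMod.val_one, pow_one]

open scoped Classical in
/-- `σ S - S` is in the kernel of reduction for `σ` in the inertia group at `p`, if the reduction
at `p` is good or multiplicative. -/
theorem smul_sub_mem_kerRed (hp2 : p ≠ 2) (hΔ : W.Δ ≠ 0) (hW : W.IsSemistableModel)
    {A : ValuationSubring ℚbar} (hA : A.LiesOverPrime p) {σ : GQ}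
    (hσ : σ ∈ A.inertiaSubgroupIn ℚ) (S : Vt W p) : σ • S - S ∈ kerRed W p A := by
  have hE := redEk W A
  have hpl := isPlace_valuationSubring A
  have hcoe : ((σ • S - S : Vt W p) : (EQ W).Point) =
      σ • (S : (EQ W).Point) - (S : (EQ W).Point) := rfl
  have hred : IsRed A.valuation (IsLocalRing.residue A)
      (σ • (S : (EQ W).Point) - (S : (EQ W).Point)) (0 : (Ek W A).Point) := by
    by_cases hgood : W.IsGoodPrimeFor p
    · have hΔk := Fermat.Agent.ECFlat.Ek_Δ_ne_zero hp.out hgood hA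
      obtain ⟨Q, hQ⟩ := exists_isRed_of_Δ_ne_zero hE hpl hΔk (S : (EQ W).Point)
      exact isRed_smul_sub hσ hE hQ
    · have hM : IsMultAt W p := ⟨hp.out, not_not.mp hgood, hW p hp.out (not_not.mp hgood), hΔ⟩
      obtain ⟨R, hR⟩ := mem_E0_iff.mp (inertia_smul_sub_mem_E0 hM hp2 hA hσ (S : (EQ W).Point))
      have h1 := isRed_nsmul hE hpl hR p
      have h2 : p • (σ • (S : (EQ W).Point) - (S : (EQ W).Point)) = 0 := by
        rw [← hcoe]
        exact mem_torsionBy_nat.mp (σ • S - S : Vt W p).2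
      rw [h2, isRed_zero_left_iff] at h1
      have hch := S12val.charP_residue hp.out hA
      have hR0 : R = 0 := by
        refine nodal_no_torsion (p := p) hp2 ?_ ?_ h1
        · change (W.map (Int.castRingHom (IsLocalRing.ResidueField A))).Δ = 0
          rw [WeierstrassCurve.map_Δ, eq_intCast, CharP.intCast_eq_zero_iff _ p]
          exact hM.dvd
        · change (W.map (Int.castRingHom (IsLocalRing.ResidueField A))).c₄ ≠ 0
          rw [WeierstrassCurve.map_c₄, eq_intCast, Ne, CharP.intCast_eq_zero_iff _ p]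
          exact hM.ndvd
      rwa [hR0] at hR
  rw [mem_kerRed, hcoe]
  exact isRed_zero_right_iff.mp hred

/-- **Locally split at `p`.** -/
theorem isCompl_kerRed (hp2 : p ≠ 2) (hΔ : W.Δ ≠ 0) (hW : W.IsSemistableModel)
    {A : ValuationSubring ℚbar} (hA : A.LiesOverPrime p) {P : Vt W p} (hP0 : P ≠ 0)
    (hfix : ∀ σ : GQ, σ • P = P) : IsCompl (Submodule.span (ZMod p) {P}) (kerRed W p A) := by
  have hPk := notMem_kerRed hp2 hA hP0 hfix
  obtain ⟨σ, hσ, hχ⟩ := exists_inertia_cycMod_ne hp2 hA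
  -- a point outside the line
  obtain ⟨S, hS⟩ : ∃ S : Vt W p, S ∉ Submodule.span (ZMod p) {P} := by
    by_contra hcon
    push Not at hcon
    have h1 : Submodule.span (ZMod p) {P} = ⊤ := eq_top_iff.mpr fun x _ => hcon x
    have h2 := card_span hP0
    rw [h1, ← Nat.card_congr (Submodule.topEquiv (R := ZMod p) (M := Vt W p)).toEquiv.symm,
      card_Vt hΔ] at h2
    have := hp.out.one_lt
    nlinarith
  have hT : σ • S - S ∉ Submodule.span (ZMod p) {P} := by
    intro h
    have h1 := smul_sub_mem_span hΔ hP0 (hfix σ) S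
    have h2 := Submodule.sub_mem _ h1 h
    have h3 : σ • S - cycMod p σ • S - (σ • S - S) = (1 - cycMod p σ) • S := by
      rw [sub_smul, one_smul]; abel
    rw [h3] at h2
    exact hS (((Submodule.smul_mem_iff _ (sub_ne_zero.mpr (Ne.symm hχ))).mp h2))
  have hTk := smul_sub_mem_kerRed hp2 hΔ hW hA hσ S
  constructor
  · rw [Submodule.disjoint_def]
    intro x hx hxk
    obtain ⟨c, rfl⟩ := Submodule.mem_span_singleton.mp hx
    by_cases hc : c = 0
    · rw [hc, zero_smul]
    · exact absurd ((Submodule.smul_mem_iff _ hc).mp hxk) hPk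
  · rw [codisjoint_iff, eq_top_iff]
    intro x _
    have hli : LinearIndependent (ZMod p) ![P, σ • S - S] := by
      rw [LinearIndependent.pair_iff' hP0]
      intro a ha
      exact hT (Submodule.mem_span_singleton.mpr ⟨a, ha⟩)
    have h1 := hli.span_eq_top_of_card_eq_finrank (by rw [Fintype.card_fin, finrank_Vt hΔ])
    have h2 : x ∈ Submodule.span (ZMod p) (Set.range ![P, σ • S - S]) := by rw [h1]; trivial
    rw [Matrix.range_cons, Matrix.range_cons, Matrix.range_empty, Set.union_empty,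
      Set.singleton_union, Submodule.mem_span_pair] at h2
    obtain ⟨a, b, rfl⟩ := h2
    exact Submodule.add_mem_sup (Submodule.smul_mem _ _ (Submodule.mem_span_singleton_self P))
      (Submodule.smul_mem _ _ hTk)

/-- The extension `⟨P⟩ → E[p] → μ_p` is admissible in the sense of statement S14. -/
theorem isAdmissible (hp3 : 3 ≤ p) (hΔ : W.Δ ≠ 0) (hW : W.IsSemistableModel) {P : Vt W p}
    (hP0 : P ≠ 0) (hfix : ∀ σ : GQ, σ • P = P)
    (hcomp : ∀ ℓ : ℕ, ℓ.Prime → ℓ ≠ p → (ℓ : ℤ) ∣ W.Δ → ∀ A : ValuationSubring ℚbar,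
      A.LiesOverPrime ℓ →
        ¬ W.InZeroComponentAt A (P : ((W.map (Int.castRingHom ℚ))⁄ℚbar).Point)) :
    IsAdmissibleExtensionCts p (Vt W p) (Submodule.span (ZMod p) {P}) := by
  have hp2 : p ≠ 2 := by omega
  have hcomm := smulComm (W := W) (p := p)
  have hfixed : ∀ σ : GQ, ∀ x ∈ Submodule.span (ZMod p) {P}, σ • x = x := by
    intro σ x hx
    obtain ⟨c, rfl⟩ := Submodule.mem_span_singleton.mp hx
    rw [smul_comm σ c P, hfix]
  refine { stable := ?_, fixed_sub := hfixed, cyclo_quot := ?_, card_sub := card_span hP0,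
           card_total := card_Vt hΔ, unramified_outside := ?_, locally_split := ?_,
           open_kernel := ?_ }
  · intro σ x hx
    rw [hfixed σ x hx]
    exact hx
  · intro σ x
    rw [cycloExp_cast]
    exact smul_sub_mem_span hΔ hP0 (hfix σ) x
  · intro ℓ hℓ hne A hA σ hσ x
    by_cases hgood : W.IsGoodPrimeFor ℓ
    · classical
      have hv : A.valuation ((p : ℕ) : ℚbar) = 1 := by
        have := Fermat.Agent.Tate.val_prime_eq_one p hp.out hℓ hne hA 1
        rwa [pow_one] at this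
      exact Subtype.ext (smul_eq_of_torsion_of_good hσ hv (redEk W A)
        (Fermat.Agent.ECFlat.Ek_Δ_ne_zero hℓ hgood hA) (mem_torsionBy_nat.mp x.2))
    · have hd := not_not.mp hgood
      exact smul_eq_of_mult hp2 ⟨hℓ, hd, hW ℓ hℓ hd, hΔ⟩ hne hA hσ (hfix σ)
        (hcomp ℓ hℓ hne hd A hA) x
  · intro A hA
    exact ⟨kerRed W p A, fun σ hσ x hx => smul_mem_kerRed hσ hx,
      isCompl_kerRed hp2 hΔ hW hA hP0 hfix⟩
  · obtain ⟨L, hL, h⟩ := Fermat.Agent.Torsion.galoisRep_factors (Tate.map_Δ_ne_zero hΔ) hp.out.ne_zero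
    have h1 : IsOpen ((fixingSubgroup GQ (Set.univ : Set (Vt W p)) : Subgroup GQ) : Set GQ) := by
      refine Subgroup.isOpen_mono (H₁ := L.fixingSubgroup) ?_
        (IntermediateField.fixingSubgroup_isOpen L)
      intro σ hσ
      rw [mem_fixingSubgroup_iff]
      intro x _
      have h2 := h σ fun y hy => (IntermediateField.mem_fixingSubgroup_iff L σ).mp hσ y hy
      exact LinearMap.congr_fun h2 x
    convert h1 using 1
    ext σ
    rw [SetLike.mem_coe, mem_fixingSubgroup_iff]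
    simp

/-- **A rational point of order `p` splits off `E[p]`** (from statement S14). -/
theorem exists_complement_torsion (hp3 : 3 ≤ p) (hΔ : W.Δ ≠ 0) (hW : W.IsSemistableModel)
    {P : Vt W p} (hP0 : P ≠ 0) (hfix : ∀ σ : GQ, σ • P = P)
    (hcomp : ∀ ℓ : ℕ, ℓ.Prime → ℓ ≠ p → (ℓ : ℤ) ∣ W.Δ → ∀ A : ValuationSubring ℚbar,
      A.LiesOverPrime ℓ →
        ¬ W.InZeroComponentAt A (P : ((W.map (Int.castRingHom ℚ))⁄ℚbar).Point)) :
    ∃ C : Submodule (ZMod p) (Vt W p), (∀ σ : GQ, ∀ x ∈ C, σ • x ∈ C) ∧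
      IsCompl (Submodule.span (ZMod p) {P}) C :=
  @Fermat.Agent.S14.result p hp hp3 (Vt W p) _ _ _ smulComm _
    (isAdmissible hp3 hΔ hW hP0 hfix hcomp)

/-- **A rational point of order `p` splits off `E[p]`**, as a statement on points. -/
theorem exists_complement (hp3 : 3 ≤ p) (hΔ : W.Δ ≠ 0) (hW : W.IsSemistableModel)
    {P : ((W.map (Int.castRingHom ℚ))⁄ℚbar).Point} (hord : addOrderOf P = p)
    (hfix : ∀ σ : GQ, σ • P = P)
    (hcomp : ∀ ℓ : ℕ, ℓ.Prime → ℓ ≠ p → (ℓ : ℤ) ∣ W.Δ → ∀ A : ValuationSubring ℚbar,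
      A.LiesOverPrime ℓ → ¬ W.InZeroComponentAt A P) :
    ∃ C : AddSubgroup ((W.map (Int.castRingHom ℚ))⁄ℚbar).Point,
      (∀ σ : GQ, ∀ x ∈ C, σ • x ∈ C) ∧ Nat.card C = p ∧ (∀ x ∈ C, p • x = 0) ∧ P ∉ C ∧
        ∀ x : ((W.map (Int.castRingHom ℚ))⁄ℚbar).Point, p • x = 0 →
          x ∈ C ⊔ AddSubgroup.zmultiples P := by
  have hpP : p • P = 0 := by rw [← hord]; exact addOrderOf_nsmul_eq_zero P
  set P' : Vt W p := ⟨P, mem_torsionBy_nat.mpr hpP⟩ with hP'
  have hP0 : P' ≠ 0 := by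
    intro h
    have h1 : P = 0 := congrArg Subtype.val h
    rw [h1, addOrderOf_zero] at hord
    exact hp.out.one_lt.ne hord
  have hfix' : ∀ σ : GQ, σ • P' = P' := fun σ => Subtype.ext (hfix σ)
  obtain ⟨C, hst, hC⟩ := exists_complement_torsion hp3 hΔ hW hP0 hfix' hcomp
  have hfin : Finite (Vt W p) := finite_torsionBy_EQ hΔ hp.out.ne_zero
  have hcardC : Nat.card C = p := by
    have h1 := Nat.card_congr (Submodule.prodEquivOfIsCompl _ _ hC).toEquiv
    rw [Nat.card_prod, card_span hP0, card_Vt hΔ, pow_two] at h1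
    exact Nat.eq_of_mul_eq_mul_left hp.out.pos h1
  set f : Vt W p →+ ((W.map (Int.castRingHom ℚ))⁄ℚbar).Point :=
    (Submodule.torsionBy ℤ ((W.map (Int.castRingHom ℚ))⁄ℚbar).Point
      (p : ℤ)).subtype.toAddMonoidHom with hf
  have hfinj : Function.Injective f := Subtype.val_injective
  refine ⟨C.toAddSubgroup.map f, ?_, ?_, ?_, ?_, ?_⟩
  · rintro σ _ ⟨x, hx, rfl⟩
    exact ⟨σ • x, hst σ x hx, rfl⟩
  · rw [← Nat.card_congr (C.toAddSubgroup.equivMapOfInjective f hfinj).toEquiv]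
    exact hcardC
  · rintro _ ⟨x, -, rfl⟩
    exact mem_torsionBy_nat.mp x.2
  · rintro ⟨x, hx, hxP⟩
    have h1 : x = P' := Subtype.ext hxP
    rw [h1] at hx
    exact hP0 ((Submodule.disjoint_def.mp hC.disjoint) P' (Submodule.mem_span_singleton_self P')
      hx)
  · intro x hx
    have h1 : (⟨x, mem_torsionBy_nat.mpr hx⟩ : Vt W p) ∈
        Submodule.span (ZMod p) {P'} ⊔ C := by
      rw [hC.sup_eq_top]; trivial
    obtain ⟨y, hy, z, hz, hyz⟩ := Submodule.mem_sup.mp h1
    obtain ⟨c, rfl⟩ := Submodule.mem_span_singleton.mp hy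
    have h2 : x = f z + c.val • P := by
      have h3 := congrArg f hyz
      rw [map_add] at h3
      have h4 : f (c • P') = c.val • P := by
        conv_lhs => rw [← ZMod.natCast_zmod_val c, Nat.cast_smul_eq_nsmul, map_nsmul]
        rfl
      rw [h4] at h3
      rw [add_comm, h3]
      rfl
    rw [h2]
    exact AddSubgroup.add_mem_sup ⟨z, hz, rfl⟩
      (AddSubgroup.nsmul_mem _ (AddSubgroup.mem_zmultiples P) _)

end Fermat.Agent.Cor.Mazur
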