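import Fermat.Agent.Corollaries.Mazur.End
import Fermat.Agent.EC.RedFrobMod
import Fermat.Agent.ECFrob.Count
import Fermat.Agent.Frob.Exists

/-!
# A Frobenius has finitely many fixed points of `p`-power order

For a curve `W` over `ℤ` with `Δ ≠ 0`, a prime `p` and a good prime `ℓ ≠ p`, the points of
`p`-power order of `W(ℚ̄)` fixed by a Frobenius at `ℓ` inject into the points of the reduction
fixed by the Frobenius, and there are finitely many of those.
-/

set_option autoImplicit false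

open WeierstrassCurve WeierstrassCurve.Affine

namespace Fermat.Agent.Cor.Mazur

open Fermat.Agent.ECRed

/-- The fixed points of the Frobenius on the points over a field containing `𝔽_ℓ`. -/
theorem finite_frob_fixed {ℓ : ℕ} [hℓ : Fact ℓ.Prime] (V : Affine (ZMod ℓ)) (L : Type*) [Field L]
    [DecidableEq L] [Algebra (ZMod ℓ) L] :
    {P : (V⁄L).Point | Fermat.Agent.ECFrob.frob V L P = P}.Finite := by
  have hB : {x : L | x ^ ℓ = x}.Finite := by
    have h0 : (Polynomial.X ^ ℓ - Polynomial.X : Polynomial L) ≠ 0 :=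
      FiniteField.X_pow_card_sub_X_ne_zero L hℓ.out.one_lt
    refine Set.Finite.subset (Polynomial.X ^ ℓ - Polynomial.X : Polynomial L).roots.toFinset.finite_toSet
      fun x hx => ?_
    rw [Finset.mem_coe, Multiset.mem_toFinset, Polynomial.mem_roots h0, Polynomial.IsRoot.def,
      Polynomial.eval_sub, Polynomial.eval_pow, Polynomial.eval_X, sub_eq_zero]
    exact hx
  refine Set.Finite.subset ((Fermat.Agent.ECFrob.finite_points (W := (V⁄L)) hB).union
    (Set.finite_singleton (0 : (V⁄L).Point))) ?_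
  intro P hP
  rcases P with _ | ⟨x, y, h⟩
  · exact Or.inr rfl
  · refine Or.inl ⟨x, y, h, rfl, ?_⟩
    have h1 : Fermat.Agent.ECFrob.frob V L (Point.some x y h) = Point.some x y h := hP
    rw [Fermat.Agent.ECFrob.frob_some, Point.some.injEq,
      Fermat.Agent.ECFrob.frobeniusAlgHom_apply, ZMod.card] at h1
    exact h1.1

/-- **Finitely many fixed points**, at a given good prime `ℓ ≠ p`. -/
theorem finite_Fix_of_good {W : WeierstrassCurve ℤ} {p ℓ : ℕ} (hp : p.Prime) (hℓ : ℓ.Prime)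
    (hpl : p ≠ ℓ) (hW : ¬ (ℓ : ℤ) ∣ W.Δ) {A : ValuationSubring (AlgebraicClosure ℚ)}
    (hA : A.LiesOverPrime ℓ) {σ : AlgebraicClosure ℚ ≃ₐ[ℚ] AlgebraicClosure ℚ}
    (hσ : A.IsFrobeniusAt σ ℓ) :
    Finite (Fix p (DistribSMul.toAddMonoidHom
      ((W.map (Int.castRingHom ℚ))⁄(AlgebraicClosure ℚ)).Point σ)) := by
  classical
  have : Fact ℓ.Prime := ⟨hℓ⟩
  have hchar := charP_residueField_of_liesOver hℓ hA
  let : Algebra (ZMod ℓ) (IsLocalRing.ResidueField A) := ZMod.algebra _ ℓ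
  have hg : W.IsGoodPrimeFor ℓ := hW
  let r := redGood (redCurve_reductionMod W (A := A) (ℓ := ℓ)) (isPlace_valuationSubring A)
    (reductionMod_Δ_ne_zero' hg)
  have hr : ∀ P, r (σ • P) = Fermat.Agent.ECFrob.frob (W.reductionMod ℓ)
      (IsLocalRing.ResidueField A) (r P) := redGood_smul_frobenius hg hσ
  have hfin := (finite_frob_fixed (W.reductionMod ℓ) (IsLocalRing.ResidueField A)).to_subtype
  refine Finite.of_injective (fun x : Fix p (DistribSMul.toAddMonoidHom
      ((W.map (Int.castRingHom ℚ))⁄(AlgebraicClosure ℚ)).Point σ) =>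
    (⟨r x.1, ?_⟩ : {P | Fermat.Agent.ECFrob.frob (W.reductionMod ℓ)
      (IsLocalRing.ResidueField A) P = P})) ?_
  · have h1 : σ • x.1 = x.1 := x.2.1
    change Fermat.Agent.ECFrob.frob _ _ (r x.1) = r x.1
    rw [← hr, h1]
  · intro x y hxy
    have hxy' : r x.1 = r y.1 := congrArg Subtype.val hxy
    obtain ⟨m, hm⟩ := x.2.2
    obtain ⟨n, hn⟩ := y.2.2
    have hmn : ((p ^ (m + n) : ℕ) : IsLocalRing.ResidueField A) ≠ 0 := by
      rw [Ne, CharP.cast_eq_zero_iff (IsLocalRing.ResidueField A) ℓ]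
      intro h
      exact hpl ((Nat.prime_dvd_prime_iff_eq hℓ hp).mp (hℓ.dvd_of_dvd_pow h)).symm
    refine Subtype.ext (redGood_injOn _ _ _ hmn ?_ ?_ hxy')
    · rw [pow_add, mul_comm, mul_nsmul', hm, nsmul_zero]
    · rw [pow_add, mul_nsmul', hn, nsmul_zero]

/-- **Finitely many fixed points**: there is an element of the Galois group fixing only finitely
many points of `p`-power order. -/
theorem exists_finite_Fix {W : WeierstrassCurve ℤ} (hΔ : W.Δ ≠ 0) {p : ℕ} (hp : p.Prime) :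
    ∃ σ : AlgebraicClosure ℚ ≃ₐ[ℚ] AlgebraicClosure ℚ,
      Finite (Fix p (DistribSMul.toAddMonoidHom
        ((W.map (Int.castRingHom ℚ))⁄(AlgebraicClosure ℚ)).Point σ)) := by
  obtain ⟨ℓ, hl, hℓ⟩ := Nat.exists_infinite_primes (W.Δ.natAbs + p + 1)
  obtain ⟨A, hA, σ, hσ⟩ := Fermat.Agent.Frob.exists_frobenius ℓ hℓ
  refine ⟨σ, finite_Fix_of_good hp hℓ (by omega) ?_ hA hσ⟩
  intro h
  have h1 := Nat.le_of_dvd (Int.natAbs_pos.mpr hΔ) (Int.natCast_dvd.mp h)
  omega

end Fermat.Agent.Cor.Mazur
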