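import Fermat.Agent.Corollaries.Mazur.CompPow
import Fermat.Agent.Corollaries.Mazur.Normal
import Fermat.Agent.Corollaries.Isog.Loc
import Fermat.Agent.Corollaries.K1.Glue
import Fermat.Agent.Corollaries.K4.Small.Eds
import Fermat.Agent.Frob.Exists
import Fermat.Agent.S01

/-!
# Rational points of order `49` and Fermat's Last Theorem for the exponent `7`

An elliptic curve over `ℚ` with a rational point `R` of order `7` is
`y² + (n² + m n - m²) x y - m² (m - n) n³ y = x³ - m² (m - n) n x²`, `R = (0, 0)`, `m`, `n` coprime,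
of discriminant `m⁷ n⁷ (m - n)⁷ (m³ - 8 m² n + 5 m n² + n³)`.  At the primes `ℓ ∣ m n (m - n)` the
reduction is multiplicative and `R` is outside the identity component.  If `R = 7 P` with `P`
rational, then `49 ∣ v_ℓ(Δ) = 7 v_ℓ(m n (m - n))` (`pow_dvd_val`): so `m`, `n`, `m - n` are
seventh powers, which contradicts Fermat's Last Theorem for the exponent `7`.
-/

set_option autoImplicit false

noncomputable section

open WeierstrassCurve WeierstrassCurve.Affine WeierstrassCurve.Affine.Point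
open Fermat.Agent.ECRed

namespace Fermat.Agent.Cor.Mazur

open Fermat.Agent.Cor.K1 (Gam Pts)

/-- The curve with the parameter `m / n` of `X₁(7)`. -/
def W7 (m n : ℤ) : WeierstrassCurve ℤ :=
  ⟨n ^ 2 + m * n - m ^ 2, -(m ^ 2 * (m - n) * n), -(m ^ 2 * (m - n) * n ^ 3), 0, 0⟩

theorem W7_Δ (m n : ℤ) : (W7 m n).Δ =
    (m * n * (m - n)) ^ 7 * (m ^ 3 - 8 * m ^ 2 * n + 5 * m * n ^ 2 + n ^ 3) := by
  simp only [W7, WeierstrassCurve.Δ, WeierstrassCurve.b₂, WeierstrassCurve.b₄,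
    WeierstrassCurve.b₆, WeierstrassCurve.b₈]
  ring

theorem W7_c₄ (m n : ℤ) : ∃ k : ℤ, (W7 m n).c₄ =
    (n ^ 2 + m * n - m ^ 2) ^ 4 + m * n * (m - n) * k := by
  refine ⟨-8 * m * (n ^ 2 + m * n - m ^ 2) ^ 2 + 16 * m ^ 3 * (m - n) * n +
    24 * m * n ^ 2 * (n ^ 2 + m * n - m ^ 2), ?_⟩
  simp only [W7, WeierstrassCurve.c₄, WeierstrassCurve.b₂, WeierstrassCurve.b₄]
  ring

/-- The prime factors of `m n (m - n)` divide neither the third factor of the discriminant nor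
`a₁`. -/
theorem prime_not_dvd {m n : ℤ} (hco : IsCoprime m n) {ℓ : ℤ} (hℓ : Prime ℓ)
    (h : ℓ ∣ m * n * (m - n)) :
    ¬ ℓ ∣ m ^ 3 - 8 * m ^ 2 * n + 5 * m * n ^ 2 + n ^ 3 ∧ ¬ ℓ ∣ n ^ 2 + m * n - m ^ 2 := by
  have key : ∀ x : ℤ, ℓ ∣ m ∧ ℓ ∣ n → False := fun _ h =>
    hℓ.not_isUnit (hco.isUnit_of_dvd' h.1 h.2)
  rcases hℓ.dvd_or_dvd h with h | h
  · rcases hℓ.dvd_or_dvd h with ⟨k, hk⟩ | ⟨k, hk⟩
    · refine ⟨fun h2 => key 0 ⟨⟨k, hk⟩, ?_⟩, fun h2 => key 0 ⟨⟨k, hk⟩, ?_⟩⟩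
      · refine hℓ.dvd_of_dvd_pow (n := 3) ?_
        have e : n ^ 3 = (m ^ 3 - 8 * m ^ 2 * n + 5 * m * n ^ 2 + n ^ 3) -
          m * (m ^ 2 - 8 * m * n + 5 * n ^ 2) := by ring
        rw [e]
        exact dvd_sub h2 (Dvd.dvd.mul_right ⟨k, hk⟩ _)
      · refine hℓ.dvd_of_dvd_pow (n := 2) ?_
        have e : n ^ 2 = (n ^ 2 + m * n - m ^ 2) - m * (n - m) := by ring
        rw [e]
        exact dvd_sub h2 (Dvd.dvd.mul_right ⟨k, hk⟩ _)
    · refine ⟨fun h2 => key 0 ⟨?_, ⟨k, hk⟩⟩, fun h2 => key 0 ⟨?_, ⟨k, hk⟩⟩⟩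
      · refine hℓ.dvd_of_dvd_pow (n := 3) ?_
        have e : m ^ 3 = (m ^ 3 - 8 * m ^ 2 * n + 5 * m * n ^ 2 + n ^ 3) -
          n * (-8 * m ^ 2 + 5 * m * n + n ^ 2) := by ring
        rw [e]
        exact dvd_sub h2 (Dvd.dvd.mul_right ⟨k, hk⟩ _)
      · refine hℓ.dvd_of_dvd_pow (n := 2) ?_
        have e : m ^ 2 = n * (n + m) - (n ^ 2 + m * n - m ^ 2) := by ring
        rw [e]
        exact dvd_sub (Dvd.dvd.mul_right ⟨k, hk⟩ _) h2
  · refine ⟨fun h2 => ?_, fun h2 => ?_⟩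
    · have h3 : ℓ ∣ m := by
        refine hℓ.dvd_of_dvd_pow (n := 3) ?_
        have e : m ^ 3 = -(m ^ 3 - 8 * m ^ 2 * n + 5 * m * n ^ 2 + n ^ 3) +
          (m - n) * (2 * m ^ 2 - 6 * m * n - n ^ 2) := by ring
        rw [e]
        exact dvd_add ((dvd_neg).mpr h2) (Dvd.dvd.mul_right h _)
      refine key 0 ⟨h3, ?_⟩
      have := dvd_sub h3 h
      simpa using this
    · have h3 : ℓ ∣ n := by
        refine hℓ.dvd_of_dvd_pow (n := 2) ?_
        have e : n ^ 2 = (n ^ 2 + m * n - m ^ 2) + (m - n) * m := by ring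
        rw [e]
        exact dvd_add h2 (Dvd.dvd.mul_right h _)
      refine key 0 ⟨?_, h3⟩
      have := dvd_add h h3
      simpa using this

/-- A number all of whose exponents are divisible by `k` is a `k`-th power. -/
theorem exists_eq_pow {N k : ℕ} (hN : N ≠ 0) (h : ∀ p : ℕ, p.Prime → p ∣ N →
    k ∣ padicValNat p N) : ∃ w, N = w ^ k := by
  refine ⟨∏ p ∈ N.primeFactors, p ^ (N.factorization p / k), ?_⟩
  rw [← Finset.prod_pow]
  conv_lhs => rw [← Nat.prod_factorization_pow_eq_self hN]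
  rw [Finsupp.prod, Nat.support_factorization]
  refine Finset.prod_congr rfl fun p hp => ?_
  have hpp := Nat.prime_of_mem_primeFactors hp
  rw [← pow_mul, Nat.div_mul_cancel]
  rw [Nat.factorization_def _ hpp]
  exact h p hpp (Nat.dvd_of_mem_primeFactors hp)

/-- Fermat's Last Theorem for the exponent seven, over the integers. -/
theorem fermat_seven : FermatLastTheoremWith ℤ 7 := by
  rw [← fermatLastTheoremFor_iff_int]
  intro a b c ha hb hc
  exact Fermat.Agent.S01.result 7 (by norm_num) a b c (Nat.pos_of_ne_zero ha)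
    (Nat.pos_of_ne_zero hb) (Nat.pos_of_ne_zero hc)

/-- `m n (m - n)` is not a seventh power, `m`, `n` coprime. -/
theorem exists_not_dvd_val {m n : ℤ} (hco : IsCoprime m n) (h0 : m * n * (m - n) ≠ 0) :
    ∃ ℓ : ℕ, ℓ.Prime ∧ (ℓ : ℤ) ∣ m * n * (m - n) ∧ ¬ 7 ∣ padicValInt ℓ (m * n * (m - n)) := by
  by_contra hcon
  push Not at hcon
  obtain ⟨w, hw⟩ := exists_eq_pow (k := 7) (Int.natAbs_ne_zero.mpr h0) fun p hp hd =>
    hcon p hp (Int.natCast_dvd.mpr hd)
  obtain ⟨t, ht⟩ : ∃ t : ℤ, m * n * (m - n) = t ^ 7 := by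
    rcases Int.natAbs_eq (m * n * (m - n)) with h | h
    · exact ⟨w, by rw [h, hw]; push_cast; ring⟩
    · exact ⟨-w, by rw [h, hw]; push_cast; ring⟩
  have hc1 : IsCoprime m (m - n) := by
    have := (IsCoprime.add_mul_left_right hco.neg_right 1)
    rwa [mul_one, neg_add_eq_sub] at this
  have hc2 : IsCoprime n (m - n) := by
    have := (IsCoprime.add_mul_left_right hco.symm (-1))
    rwa [mul_neg_one, ← sub_eq_add_neg] at this
  have hodd : Odd 7 := by decide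
  obtain ⟨⟨a, ha⟩, ⟨b, hb⟩⟩ := Int.eq_pow_of_mul_eq_pow_odd (hco.mul_right hc1) hodd
    (c := t) (by rw [← ht]; ring)
  obtain ⟨⟨b', hb'⟩, ⟨c, hc⟩⟩ := Int.eq_pow_of_mul_eq_pow_odd hc2 hodd hb
  have hm0 : m ≠ 0 := left_ne_zero_of_mul (left_ne_zero_of_mul h0)
  have hn0 : n ≠ 0 := right_ne_zero_of_mul (left_ne_zero_of_mul h0)
  have hd0 : m - n ≠ 0 := right_ne_zero_of_mul h0
  refine fermat_seven b' c a ?_ ?_ ?_ ?_
  · rintro rfl
    exact hn0 (by rw [hb']; norm_num)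
  · rintro rfl
    exact hd0 (by rw [hc]; norm_num)
  · rintro rfl
    exact hm0 (by rw [ha]; norm_num)
  · rw [← hb', ← hc, ← ha]
    ring

/-- The valuation of the discriminant. -/
theorem padicValInt_W7_Δ {m n : ℤ} (hco : IsCoprime m n) (hΔ : (W7 m n).Δ ≠ 0) {ℓ : ℕ} (hℓ : ℓ.Prime) (hd : (ℓ : ℤ) ∣ m * n * (m - n)) :
    padicValInt ℓ (W7 m n).Δ = 7 * padicValInt ℓ (m * n * (m - n)) := by
  have hF : Fact ℓ.Prime := ⟨hℓ⟩
  have h1 := (prime_not_dvd hco (Nat.prime_iff_prime_int.mp hℓ) hd).1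
  rw [W7_Δ] at hΔ ⊢
  rw [padicValInt.mul (left_ne_zero_of_mul hΔ) (right_ne_zero_of_mul hΔ),
    padicValInt.eq_zero_of_not_dvd h1, add_zero, padicValInt, Int.natAbs_pow,
    padicValNat.pow]
  rfl

theorem isMultAt_W7 {m n : ℤ} (hco : IsCoprime m n) (hΔ : (W7 m n).Δ ≠ 0) {ℓ : ℕ}
    (hℓ : ℓ.Prime) (hd : (ℓ : ℤ) ∣ m * n * (m - n)) : IsMultAt (W7 m n) ℓ where
  prime := hℓ
  dvd := by
    rw [W7_Δ]
    exact Dvd.dvd.mul_right (Dvd.dvd.pow hd (by norm_num)) _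
  ndvd := by
    obtain ⟨k, hk⟩ := W7_c₄ m n
    rw [hk]
    intro h
    have hp := Nat.prime_iff_prime_int.mp hℓ
    have h1 : (ℓ : ℤ) ∣ (n ^ 2 + m * n - m ^ 2) ^ 4 :=
      (dvd_add_left (Dvd.dvd.mul_right hd k)).mp h
    exact (prime_not_dvd hco hp hd).2 (hp.dvd_of_dvd_pow h1)
  ne := hΔ

/-- **An elliptic curve over `ℚ` has no rational point of order `49`** (from Fermat's Last Theorem
for the exponent seven). -/
theorem addOrderOf_ne_fortynine (E : WeierstrassCurve ℚ) [E.IsElliptic] (P : Pts E)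
    (hfix : ∀ σ : Gam, σ • P = P) : addOrderOf P ≠ 49 := by
  intro hP
  set R : Pts E := 7 • P with hR
  have hR7 : addOrderOf R = 7 := by
    rw [hR, addOrderOf_nsmul_of_dvd (by norm_num) (by rw [hP]; norm_num), hP]
  have hfixR : ∀ σ : Gam, σ • R = R := fun σ => by
    have h1 : σ • (7 • P) = 7 • (σ • P) :=
      map_nsmul (DistribSMul.toAddMonoidHom (Pts E) σ) 7 P
    rw [hR, h1, hfix]
  obtain ⟨W, e, he, hN⟩ := exists_normal E (by norm_num : Nat.Prime 7) (by norm_num) R hR7 hfixR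
  obtain ⟨b, c, u, hb, hu, h1, h2, h3, -, h7, -⟩ :=
    Fermat.Agent.Cor.Small.exists_tate hN (Or.inr (Or.inl rfl))
  have h7 := h7 rfl
  -- the parameter
  have hc : c ≠ 0 := by
    rintro rfl
    have h1 : b ^ 2 = 0 := by linear_combination -h7
    exact hb (pow_eq_zero_iff (two_ne_zero) |>.mp h1)
  obtain ⟨r, hr⟩ : ∃ r : ℚ, b = r * c := ⟨b / c, by field_simp⟩
  have hcr : c = r ^ 2 - r := by
    rw [hr] at h7
    have h1 : c ^ 2 * (c - (r ^ 2 - r)) = 0 := by linear_combination h7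
    rcases mul_eq_zero.mp h1 with h2 | h2
    · exact absurd (pow_eq_zero_iff (two_ne_zero) |>.mp h2) hc
    · linarith
  obtain ⟨m, n, hn0, hco, hrmn⟩ : ∃ m n : ℤ, n ≠ 0 ∧ IsCoprime m n ∧ r * n = m := by
    refine ⟨r.num, r.den, by exact_mod_cast r.den_nz, ?_, by exact_mod_cast Rat.mul_den_eq_num r⟩
    rw [Int.isCoprime_iff_gcd_eq_one]
    exact r.reduced
  have hnQ : (n : ℚ) ≠ 0 := by exact_mod_cast hn0
  have hcQ : c * n ^ 2 = m * (m - n) := by
    rw [hcr, ← hrmn]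
    ring
  have hbQ : b * n ^ 3 = m ^ 2 * (m - n) := by
    rw [hr, hcr, ← hrmn]
    ring
  have hbn : b * (n : ℚ) ^ 3 ≠ 0 := mul_ne_zero hb (pow_ne_zero _ hnQ)
  have h0 : m * n * (m - n) ≠ 0 := by
    intro h
    have h' : (m : ℚ) * n * (m - n) = 0 := by exact_mod_cast h
    rcases mul_eq_zero.mp h' with h'' | h''
    · rcases mul_eq_zero.mp h'' with h3 | h3
      · exact hbn (by rw [hbQ, h3]; ring)
      · exact hnQ h3
    · exact hbn (by rw [hbQ, h'']; ring)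
  -- the change of variables
  let C : VariableChange ℚ := ⟨Units.mk0 (u / n ^ 2) (div_ne_zero hu (pow_ne_zero _ hnQ)), 0, 0, 0⟩
  have hCu : ((C.u⁻¹ : ℚˣ) : ℚ) = n ^ 2 / u := by
    simp [C]
  have e1 : (n : ℚ) ^ 2 / u * u = n ^ 2 := div_mul_cancel₀ _ hu
  have e2 : ((n : ℚ) ^ 2 / u) ^ 2 * u ^ 2 = n ^ 4 := by rw [← mul_pow, e1]; ring
  have e3 : ((n : ℚ) ^ 2 / u) ^ 3 * u ^ 3 = n ^ 6 := by rw [← mul_pow, e1]; ring
  have hC : C • W.map (Int.castRingHom ℚ) = (W7 m n).map (Int.castRingHom ℚ) := by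
    ext
    · rw [variableChange_a₁, hCu]
      simp only [C, map_a₁, Int.coe_castRingHom, h1, W7]
      push_cast
      linear_combination (1 - c) * e1 - hcQ
    · rw [variableChange_a₂, hCu]
      simp only [C, map_a₁, map_a₂, Int.coe_castRingHom, h1, h2, W7]
      push_cast
      linear_combination (-b) * e2 - (n : ℚ) * hbQ
    · rw [variableChange_a₃, hCu]
      simp only [C, map_a₁, map_a₃, Int.coe_castRingHom, h1, h3, W7]
      push_cast
      linear_combination (-b) * e3 - (n : ℚ) ^ 3 * hbQ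
    · rw [variableChange_a₄]
      simp only [C, map_a₁, map_a₂, map_a₃, map_a₄, hN.h4, W7, _root_.map_zero]
      ring
    · rw [variableChange_a₆]
      simp only [C, map_a₁, map_a₂, map_a₃, map_a₄, map_a₆, hN.h4, hN.h6, W7, _root_.map_zero]
      ring
  have hΔW : (W.map (Int.castRingHom ℚ)).Δ ≠ 0 := by
    rw [WeierstrassCurve.map_Δ]
    simpa using hN.hΔ
  obtain ⟨f, hf, hfc⟩ := exists_equiv_coord hΔW hC
  have hΔ7 : (W7 m n).Δ ≠ 0 := by
    intro h
    have h4 : ((W7 m n).map (Int.castRingHom ℚ)).Δ = 0 := by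
      rw [WeierstrassCurve.map_Δ, h, _root_.map_zero]
    rw [← hC, variableChange_Δ] at h4
    exact mul_ne_zero (pow_ne_zero _ (Units.ne_zero _)) hΔW h4
  -- the points on the new curve
  set P' : Pt (W7 m n) := f.symm (e P) with hP'
  set R' : Pt (W7 m n) := f.symm (e R) with hR'
  have hPR : 7 ^ 1 • P' = R' := by
    rw [pow_one, hP', hR', hR, map_nsmul, map_nsmul]
  have hR'7 : 7 • R' = 0 := by
    rw [hR', ← map_nsmul, ← map_nsmul]
    have : 7 • R = 0 := by rw [← hR7]; exact addOrderOf_nsmul_eq_zero R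
    rw [this, _root_.map_zero, _root_.map_zero]
  have hfix' : ∀ σ : Gam, σ • P' = P' := fun σ => by
    apply f.injective
    rw [hf, hP', AddEquiv.apply_symm_apply, ← he, hfix]
  have hR0 : ∃ h, R' = Point.some 0 0 h := by
    obtain ⟨h0', hR0⟩ := hN.hQ
    have h00 : (((W7 m n).map (Int.castRingHom ℚ))⁄(AlgebraicClosure ℚ)).Nonsingular 0 0 := by
      refine (equation_iff_nonsingular_of_Δ_ne_zero
        (Fermat.Agent.Cor.Isog.Δbar_ne_zero hΔ7)).mp ?_
      rw [equation_zero]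
      change algebraMap ℚ (AlgebraicClosure ℚ) (Int.castRingHom ℚ 0) = 0
      rw [_root_.map_zero, _root_.map_zero]
    refine ⟨h00, ?_⟩
    apply f.injective
    obtain ⟨h0'', hf0⟩ := hfc 0 0 h00
    rw [hR', AddEquiv.apply_symm_apply, hR0, hf0, Point.some.injEq]
    constructor <;> simp [C]
  -- the contradiction
  obtain ⟨ℓ, hℓ, hd, hnd⟩ := exists_not_dvd_val hco h0
  apply hnd
  obtain ⟨A, hA⟩ := Fermat.Agent.Frob.exists_liesOverPrime ℓ hℓ
  obtain ⟨h0', hR0⟩ := hR0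
  have hnz : ¬ (W7 m n).InZeroComponentAt A R' := by
    refine not_inZero_of_dvd hℓ hA rfl rfl ?_ hR0 (X := 0) (by simp) (dvd_zero _)
    change (ℓ : ℤ) ∣ -(m ^ 2 * (m - n) * n ^ 3)
    have e : -(m ^ 2 * (m - n) * n ^ 3) = m * n * (m - n) * (-(m * n ^ 2)) := by ring
    rw [e]
    exact Dvd.dvd.mul_right hd _
  have key := pow_dvd_val (isMultAt_W7 hco hΔ7 hℓ hd) (by norm_num : Nat.Prime 7) (by norm_num)
    hA hR'7 hnz hPR fun σ _ => hfix' σ
  rw [padicValInt_W7_Δ hco hΔ7 hℓ hd] at key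
  obtain ⟨k, hk⟩ := key
  exact ⟨k, by omega⟩

end Fermat.Agent.Cor.Mazur

namespace Fermat.Agent.Cor

open Fermat.Agent.Cor.K1 (Gam Pts)

/-- **An elliptic curve over `ℚ` has no rational point of order `49`.** -/
theorem no_point_fortynine (E : WeierstrassCurve ℚ) [E.IsElliptic] (P : E.toAffine.Point) :
    addOrderOf P ≠ 49 := by
  refine K1.forall_point_of_forall_baseChange (fun E _ P hP => ?_) E P
  refine Mazur.addOrderOf_ne_fortynine E (Point.baseChange ℚ (AlgebraicClosure ℚ) P)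
    (fun σ => K1.smul_baseChange E σ P) ?_
  rw [K1.addOrderOf_baseChange, hP]

/-- The order of a rational torsion point is not divisible by `49`. -/
theorem not_fortynine_dvd_addOrderOf (E : WeierstrassCurve ℚ) [E.IsElliptic]
    {P : E.toAffine.Point} (hP : addOrderOf P ≠ 0) : ¬ 49 ∣ addOrderOf P := by
  rintro ⟨m, hm⟩
  have hm0 : m ≠ 0 := fun h0 => hP (by rw [hm, h0, mul_zero])
  apply no_point_fortynine E (m • P)
  rw [addOrderOf_nsmul_of_dvd hm0 ⟨49, by rw [hm, mul_comm]⟩, hm,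
    Nat.mul_div_cancel _ (Nat.pos_of_ne_zero hm0)]

end Fermat.Agent.Cor
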