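import Fermat.Agent.Corollaries.Isog.Inert
import Fermat.Agent.Corollaries.Mazur.Cusp

/-!
# Divisible points outside the identity component

`W` over `ℤ`, `q` a prime of multiplicative reduction, `R` a point of order `p` outside the identity
component at a place above `q`.  If `R = p ^ m P` with `P` fixed by inertia, then
`p ^ (m + 1) ∣ v_q(Δ)` (`pow_dvd_val`).
-/

set_option autoImplicit false

open WeierstrassCurve WeierstrassCurve.Affine FermatAgent.ECVal Fermat.Agent.ECRed
open Fermat.Agent.S12val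
open scoped WeierstrassCurve.Affine

namespace Fermat.Agent.Cor.Mazur

variable {W : WeierstrassCurve ℤ} {A : ValuationSubring (AlgebraicClosure ℚ)} {q : ℕ}

/-- The arithmetic of the component values. -/
theorem pow_dvd_of_rel {p V m : ℕ} (hp : p.Prime) {i c k : ℤ} (hi : 0 < i)
    (hip : i < p) (h : i * V = p ^ (m + 1) * c + k * p * V) : p ^ (m + 1) ∣ V := by
  have h1 : (p : ℤ) ^ (m + 1) ∣ (i - k * p) * V := ⟨c, by linear_combination h⟩
  have h2 : IsCoprime ((p : ℤ) ^ (m + 1)) (i - k * p) := by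
    refine IsCoprime.pow_left ?_
    refine (Nat.prime_iff_prime_int.mp hp).coprime_iff_not_dvd.mpr fun h3 => ?_
    have h4 : (p : ℤ) ∣ i := by
      have := dvd_add h3 (Dvd.intro_left k rfl)
      rwa [sub_add_cancel] at this
    have := Int.le_of_dvd hi h4
    omega
  exact_mod_cast h2.dvd_of_dvd_mul_left h1

/-- **A divisible point outside the identity component.** -/
theorem pow_dvd_val (hW : IsMultAt W q) {p : ℕ} (hp : p.Prime) (hp2 : p ≠ 2)
    (hA : A.LiesOverPrime q) {m : ℕ} {R P : Pt W} (hR : p • R = 0)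
    (hRE : ¬ W.InZeroComponentAt A R) (hRP : p ^ m • P = R)
    (hfix : ∀ σ ∈ A.inertiaSubgroupIn ℚ, σ • P = P) : p ^ (m + 1) ∣ padicValInt q W.Δ := by
  classical
  obtain ⟨e, D, NR⟩ := hW.exists_nodeRoot hA
  have N := NR.nodeData hW.prime hA hW.ne
  have h2D := two_mul_valOf_nodeD hW hA NR
  set V := padicValInt q W.Δ with hVdef
  have hh0 := N.hh
  have hV0 : 0 < V := by
    have : (0 : ℚ) < (V : ℚ) := by rw [← h2D]; linarith
    exact_mod_cast this
  have hyE : R ∉ E0 (redEk W A) (isPlace_valuationSubring A) := by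
    intro h
    apply hRE
    rw [inZeroComponentAt_iff]
    exact mem_E0_iff.mp h
  rw [mem_E0_iff_pcomp hW.prime hA hW.ne NR] at hyE
  have hx2 : p ^ (m + 1) • P = 0 := by rw [pow_succ', mul_smul, hRP, hR]
  have hxE : pcomp (valOf hW.prime hA) e ((valOf hW.prime hA).val D) P ≠ 0 := by
    intro h0
    apply hyE
    rw [← mem_E0_iff_pcomp hW.prime hA hW.ne NR] at h0 ⊢
    rw [← hRP]
    exact AddSubgroup.nsmul_mem _ h0 _
  have hodd : Odd (p ^ (m + 1)) := (hp.odd_of_ne_two hp2).pow
  obtain ⟨c, hc⟩ := Fermat.Agent.Cor.Isog.exists_int_pcomp hW hA NR hodd hx2 hxE hfix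
  set w := valOf hW.prime hA with hw
  set h := w.val D with hh
  have hp0 : (0 : ℚ) < p := by exact_mod_cast hp.pos
  -- the component value of `R`
  obtain ⟨i, hi⟩ := pcomp_torsion N hR
  have hy0 : 0 < pcomp w e h R := lt_of_le_of_ne (pcomp_nonneg N R) (Ne.symm hyE)
  have hy1 := pcomp_le N R
  have hiV : (p : ℚ) * pcomp w e h R = i * V := by rw [hi, h2D]
  have hi0 : 0 < i := by
    have h1 : (0 : ℚ) < i * V := by rw [← hiV]; exact mul_pos hp0 hy0
    have h2 : (0 : ℚ) < V := by exact_mod_cast hV0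
    have h3 : (0 : ℚ) < i := (mul_pos_iff_of_pos_right h2).mp h1
    exact_mod_cast h3
  have hip : i < p := by
    have h2 : (0 : ℚ) < V := by exact_mod_cast hV0
    have h1 : (i : ℚ) * V ≤ p * h := by
      rw [← hiV]
      exact mul_le_mul_of_nonneg_left hy1 hp0.le
    have h3 : (i : ℚ) < p := by
      by_contra hge
      rw [not_lt] at hge
      have : (p : ℚ) * V ≤ i * V := mul_le_mul_of_nonneg_right hge h2.le
      nlinarith
    exact_mod_cast h3
  -- and the relation with that of `P`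
  have hrel := pcomp_nsmul N P (p ^ m)
  rw [hRP, hc] at hrel
  obtain ⟨k, hk | hk⟩ := hrel
  · refine pow_dvd_of_rel hp hi0 hip (c := c) (k := k) ?_
    have : (i : ℚ) * V = p ^ (m + 1) * c + k * p * V := by
      rw [← hiV, hk, ← h2D]
      push_cast
      ring
    exact_mod_cast this
  · refine pow_dvd_of_rel hp hi0 hip (c := -c) (k := k) ?_
    have : (i : ℚ) * V = p ^ (m + 1) * (-c) + k * p * V := by
      rw [← hiV, hk, ← h2D]
      push_cast
      ring
    exact_mod_cast this

/-- A point `(X, y)` of `y² + a₁ x y + a₃ y = x³ + a₂ x²` with `ℓ ∣ X`, `ℓ ∣ a₃` reduces to the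
singular point `(0, 0)`. -/
theorem not_inZero_of_dvd {ℓ : ℕ} (hℓ : ℓ.Prime) (hA : A.LiesOverPrime ℓ) (h4 : W.a₄ = 0)
    (h6 : W.a₆ = 0) (h3 : (ℓ : ℤ) ∣ W.a₃) {P : Pt W} {x y : AlgebraicClosure ℚ} {hxy}
    (hP : P = Point.some x y hxy) {X : ℤ} (hX : x = (X : AlgebraicClosure ℚ))
    (hd : (ℓ : ℤ) ∣ X) : ¬ W.InZeroComponentAt A P := by
  have hch := charP_residue hℓ hA
  subst hP
  rintro (h | ⟨x', y', hxy', h, h' | ⟨hx, hy, hns⟩⟩)
  · exact Point.some_ne_zero _ h
  · obtain ⟨rfl, rfl⟩ := Point.some.inj h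
    exact h' (by rw [hX]; exact _root_.intCast_mem A X)
  · obtain ⟨rfl, rfl⟩ := Point.some.inj h
    have e0 : IsLocalRing.residue A ⟨x, hx⟩ = 0 := by
      have e1 : (⟨x, hx⟩ : A) = ((X : ℤ) : A) := Subtype.ext hX
      rw [e1, map_intCast, CharP.intCast_eq_zero_iff _ ℓ]
      exact hd
    have e3 : (W.map (Int.castRingHom (IsLocalRing.ResidueField A))).a₃ = 0 := by
      rw [WeierstrassCurve.map_a₃, eq_intCast, CharP.intCast_eq_zero_iff _ ℓ]
      exact h3
    have e4 : (W.map (Int.castRingHom (IsLocalRing.ResidueField A))).a₄ = 0 := by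
      rw [WeierstrassCurve.map_a₄, h4, _root_.map_zero]
    have e6 : (W.map (Int.castRingHom (IsLocalRing.ResidueField A))).a₆ = 0 := by
      rw [WeierstrassCurve.map_a₆, h6, _root_.map_zero]
    rw [e0] at hns
    have ey : IsLocalRing.residue A ⟨y, hy⟩ = 0 := by
      have h1 := (Affine.equation_iff _ _).mp hns.1
      rw [e3, e4, e6] at h1
      have h2 : (IsLocalRing.residue A ⟨y, hy⟩) ^ 2 = 0 := by linear_combination h1
      exact pow_eq_zero_iff two_ne_zero |>.mp h2
    rw [ey, Affine.nonsingular_zero] at hns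
    rcases hns.2 with h | h
    · exact h e3
    · exact h e4

end Fermat.Agent.Cor.Mazur
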