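import Mathlib

/-!
# Fixed points along a tower of isogenies

The number of torsion points fixed by an endomorphism does not grow along surjective equivariant
maps with finite kernel. This ends Mazur's argument: on the curves of the tower there would be
rational points of order `p ^ n` for all `n`.
-/

set_option autoImplicit false

namespace Fermat.Agent.Cor.Mazur

section Card

variable {A B : Type*} [AddCommGroup A] [AddCommGroup B]

/-- Fibres of a homomorphism: `#(preimage) = #(kernel) * #(image)`. -/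
theorem finite_and_card_le_of_fibres (f : A →+ B) (S : AddSubgroup A) (T : AddSubgroup B)
    [Finite T] (hST : ∀ a ∈ S, f a ∈ T) (hker : Finite {a : A // a ∈ S ∧ f a = 0}) :
    Finite S ∧ Nat.card S ≤ Nat.card {a : A // a ∈ S ∧ f a = 0} * Nat.card T := by
  classical
  let g : S →+ T := (f.comp S.subtype).codRestrict T fun a => hST a a.2
  let e : {a : A // a ∈ S ∧ f a = 0} ≃ g.ker :=
    { toFun := fun a => ⟨⟨a.1, a.2.1⟩, by
        rw [AddMonoidHom.mem_ker]
        exact Subtype.ext a.2.2⟩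
      invFun := fun a => ⟨a.1.1, a.1.2, by
        have := a.2
        rw [AddMonoidHom.mem_ker] at this
        exact congrArg Subtype.val this⟩
      left_inv := fun a => rfl
      right_inv := fun a => rfl }
  have hk : Finite g.ker := Finite.of_equiv _ e
  have hr : Finite g.range := inferInstance
  have hq : Finite (S ⧸ g.ker) := Finite.of_equiv _ (QuotientAddGroup.quotientKerEquivRange g).symm.toEquiv
  have hS : Finite S := by
    have e2 := AddSubgroup.addGroupEquivQuotientProdAddSubgroup (s := g.ker)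
    exact Finite.of_equiv _ e2.symm
  refine ⟨hS, ?_⟩
  have h1 := AddSubgroup.card_eq_card_quotient_mul_card_addSubgroup g.ker
  have h2 : Nat.card (S ⧸ g.ker) = Nat.card g.range :=
    Nat.card_congr (QuotientAddGroup.quotientKerEquivRange g).toEquiv
  have h3 : Nat.card g.range ≤ Nat.card T := Nat.card_le_card_of_injective _ Subtype.val_injective
  rw [h1, h2, Nat.card_congr e, mul_comm]
  exact Nat.mul_le_mul_left _ h3

/-- **Fixed points along an isogeny.** -/
theorem card_fixed_le (ψ : A →+ B) (hψ : Function.Surjective ψ) (hD : Finite ψ.ker)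
    (φ : A →+ A) (φ' : B →+ B) (hc : ∀ a, ψ (φ a) = φ' (ψ a)) (hfin : Finite {a // φ a = a}) :
    Finite {b // φ' b = b} ∧ Nat.card {b // φ' b = b} ≤ Nat.card {a // φ a = a} := by
  classical
  -- `C = {a : φ a - a ∈ ker ψ}`
  let f : A →+ A := φ - AddMonoidHom.id A
  have hf : ∀ a, f a = φ a - a := fun a => rfl
  let C : AddSubgroup A := ψ.ker.comap f
  have hC : ∀ a, a ∈ C ↔ ψ (f a) = 0 := fun a => Iff.rfl
  let eF : {a : A // a ∈ C ∧ f a = 0} ≃ {a // φ a = a} :=
    { toFun := fun a => ⟨a.1, sub_eq_zero.mp a.2.2⟩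
      invFun := fun a => ⟨a.1, by
        rw [hC, hf, a.2, sub_self, map_zero], by rw [hf, a.2, sub_self]⟩
      left_inv := fun a => rfl
      right_inv := fun a => rfl }
  have hfinF : Finite {a : A // a ∈ C ∧ f a = 0} := Finite.of_equiv _ eF.symm
  obtain ⟨hCfin, hCcard⟩ := finite_and_card_le_of_fibres f C ψ.ker (fun a ha => ha) hfinF
  rw [Nat.card_congr eF] at hCcard
  -- `ψ : C → fixed points of φ'`
  let G : AddSubgroup B :=
    { carrier := {b | φ' b = b}
      zero_mem' := map_zero φ'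
      add_mem' := fun {a b} ha hb => by
        change φ' (a + b) = a + b
        rw [map_add, ha, hb]
      neg_mem' := fun {a} ha => by
        change φ' (-a) = -a
        rw [map_neg, ha] }
  have hmem : ∀ a ∈ C, ψ a ∈ G := by
    intro a ha
    rw [hC, hf, map_sub, hc, sub_eq_zero] at ha
    exact ha
  let h : C →+ G := (ψ.comp C.subtype).codRestrict G fun a => hmem a a.2
  have hsurj : Function.Surjective h := by
    rintro ⟨b, hb⟩
    obtain ⟨a, rfl⟩ := hψ b
    have hb' : φ' (ψ a) = ψ a := hb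
    refine ⟨⟨a, ?_⟩, rfl⟩
    rw [hC, hf, map_sub, hc, hb', sub_self]
  have hG : Finite G := Finite.of_surjective h hsurj
  refine ⟨hG, ?_⟩
  change Nat.card G ≤ _
  have h1 := AddSubgroup.card_eq_card_quotient_mul_card_addSubgroup h.ker
  have h2 : Nat.card (C ⧸ h.ker) = Nat.card G :=
    Nat.card_congr (QuotientAddGroup.quotientKerEquivOfSurjective h hsurj).toEquiv
  have hle : ∀ a ∈ ψ.ker, a ∈ C := by
    intro a ha
    rw [AddMonoidHom.mem_ker] at ha
    rw [hC, hf, map_sub, hc, ha, map_zero, sub_self]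
  have h3 : Nat.card ψ.ker ≤ Nat.card h.ker := by
    refine Nat.card_le_card_of_injective
      (fun a : ψ.ker => (⟨⟨a.1, hle a.1 a.2⟩, ?_⟩ : h.ker)) ?_
    · rw [AddMonoidHom.mem_ker]
      exact Subtype.ext a.2
    · intro a b hab
      exact Subtype.ext (congrArg (fun x : h.ker => (x.1 : A)) hab)
  have h4 : 0 < Nat.card ψ.ker := Nat.card_pos
  have h5 : Nat.card G * Nat.card ψ.ker ≤ Nat.card {a // φ a = a} * Nat.card ψ.ker := by
    calc Nat.card G * Nat.card ψ.ker ≤ Nat.card G * Nat.card h.ker := Nat.mul_le_mul_left _ h3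
      _ = Nat.card C := by rw [h1, h2]
      _ ≤ _ := hCcard
  exact Nat.le_of_mul_le_mul_right h5 h4

end Card

section Primary

variable {A B : Type*} [AddCommGroup A] [AddCommGroup B]

/-- The `p`-primary torsion points fixed by `φ`. -/
def Fix (p : ℕ) (φ : A →+ A) : Type _ := {a : A // φ a = a ∧ ∃ k : ℕ, p ^ k • a = 0}

/-- The `p`-primary torsion subgroup. -/
def prim (p : ℕ) (A : Type*) [AddCommGroup A] : AddSubgroup A where
  carrier := {a | ∃ k : ℕ, p ^ k • a = 0}
  zero_mem' := ⟨0, smul_zero _⟩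
  add_mem' := by
    rintro a b ⟨k, hk⟩ ⟨l, hl⟩
    refine ⟨k + l, ?_⟩
    rw [smul_add, pow_add, mul_smul, mul_smul, hl, smul_zero, add_zero, smul_comm, hk, smul_zero]
  neg_mem' := by
    rintro a ⟨k, hk⟩
    exact ⟨k, by rw [smul_neg, hk, neg_zero]⟩

theorem mem_prim {p : ℕ} {a : A} : a ∈ prim p A ↔ ∃ k : ℕ, p ^ k • a = 0 := Iff.rfl

theorem map_mem_prim {p : ℕ} (φ : A →+ B) {a : A} (ha : a ∈ prim p A) : φ a ∈ prim p B := by
  obtain ⟨k, hk⟩ := ha
  exact ⟨k, by rw [← map_nsmul, hk, map_zero]⟩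

/-- the restriction to the primary parts -/
def resPrim (p : ℕ) (φ : A →+ B) : prim p A →+ prim p B :=
  (φ.comp (prim p A).subtype).codRestrict _ fun a => map_mem_prim φ a.2

@[simp] theorem coe_resPrim (p : ℕ) (φ : A →+ B) (a : prim p A) : (resPrim p φ a : B) = φ a := rfl

/-- `Fix p φ` are the fixed points on the primary part. -/
def fixEquiv (p : ℕ) (φ : A →+ A) : Fix p φ ≃ {a : prim p A // resPrim p φ a = a} where
  toFun a := ⟨⟨a.1, a.2.2⟩, Subtype.ext a.2.1⟩
  invFun a := ⟨a.1.1, congrArg Subtype.val a.2, a.1.2⟩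
  left_inv _ := rfl
  right_inv _ := rfl

/-- Fixed points along an isogeny, `p`-primary version. The kernel is finite and killed by a power
of `p`. -/
theorem card_Fix_le {p : ℕ} (ψ : A →+ B) (hψ : Function.Surjective ψ) (hD : Finite ψ.ker)
    (hDp : ∃ k : ℕ, ∀ a ∈ ψ.ker, p ^ k • a = 0)
    (φ : A →+ A) (φ' : B →+ B) (hc : ∀ a, ψ (φ a) = φ' (ψ a)) (hfin : Finite (Fix p φ)) :
    Finite (Fix p φ') ∧ Nat.card (Fix p φ') ≤ Nat.card (Fix p φ) := by
  have hs : Function.Surjective (resPrim p ψ) := by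
    rintro ⟨b, l, hl⟩
    obtain ⟨a, rfl⟩ := hψ b
    obtain ⟨k, hk⟩ := hDp
    refine ⟨⟨a, k + l, ?_⟩, rfl⟩
    rw [pow_add, mul_smul]
    apply hk
    rw [AddMonoidHom.mem_ker, map_nsmul, hl]
  have hker : Finite (resPrim p ψ).ker := by
    refine Finite.of_injective (fun a : (resPrim p ψ).ker => (⟨(a.1 : A), ?_⟩ : ψ.ker)) ?_
    · have := a.2
      rw [AddMonoidHom.mem_ker] at this ⊢
      exact congrArg Subtype.val this
    · intro a b hab
      exact Subtype.ext (Subtype.ext (congrArg (fun x : ψ.ker => (x : A)) hab))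
  have hfin' : Finite {a : prim p A // resPrim p φ a = a} := Finite.of_equiv _ (fixEquiv p φ)
  obtain ⟨h1, h2⟩ := card_fixed_le (resPrim p ψ) hs hker (resPrim p φ) (resPrim p φ')
    (fun a => Subtype.ext (hc a)) hfin'
  refine ⟨Finite.of_equiv _ (fixEquiv p φ').symm, ?_⟩
  rw [Nat.card_congr (fixEquiv p φ), Nat.card_congr (fixEquiv p φ')]
  exact h2

/-- A fixed point of order `n = p ^ k` gives `n` fixed points. -/
theorem le_card_Fix {p : ℕ} (φ : A →+ A) (hfin : Finite (Fix p φ)) {a : A} (ha : φ a = a) {n : ℕ}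
    (hn : addOrderOf a = p ^ n) : p ^ n ≤ Nat.card (Fix p φ) := by
  have hk : p ^ n • a = 0 := by rw [← hn]; exact addOrderOf_nsmul_eq_zero a
  rw [← hn, ← Nat.card_zmultiples]
  refine Nat.card_le_card_of_injective
    (fun x : AddSubgroup.zmultiples a => (⟨(x : A), ?_, n, ?_⟩ : Fix p φ)) ?_
  · obtain ⟨m, hm⟩ := AddSubgroup.mem_zmultiples_iff.mp x.2
    rw [← hm, map_zsmul, ha]
  · obtain ⟨m, hm⟩ := AddSubgroup.mem_zmultiples_iff.mp x.2
    rw [← hm, smul_comm, hk, smul_zero]
  · intro x y hxy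
    exact Subtype.ext (congrArg (fun z : Fix p φ => z.1) hxy)

end Primary

/-- **There is no tower** `A 0 → A 1 → ...` of surjective equivariant maps with finite `p`-primary
kernels, such that `A 0` has finitely many `p`-primary points fixed by the automorphism and `A n`
has a fixed point of order `p ^ n` for every `n`. -/
theorem no_tower {p : ℕ} (hp : 1 < p) (A : ℕ → Type*) [∀ n, AddCommGroup (A n)]
    (φ : ∀ n, A n →+ A n) (ψ : ∀ n, A n →+ A (n + 1)) (hψ : ∀ n, Function.Surjective (ψ n))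
    (hD : ∀ n, Finite (ψ n).ker) (hDp : ∀ n, ∃ k : ℕ, ∀ a ∈ (ψ n).ker, p ^ k • a = 0)
    (hc : ∀ n a, ψ n (φ n a) = φ (n + 1) (ψ n a)) (hfin : Finite (Fix p (φ 0)))
    (h : ∀ n, ∃ a : A n, φ n a = a ∧ addOrderOf a = p ^ n) : False := by
  have key : ∀ n, Finite (Fix p (φ n)) ∧ Nat.card (Fix p (φ n)) ≤ Nat.card (Fix p (φ 0)) := by
    intro n
    induction n with
    | zero => exact ⟨hfin, le_rfl⟩
    | succ n ih =>
      obtain ⟨h1, h2⟩ := card_Fix_le (ψ n) (hψ n) (hD n) (hDp n) (φ n) (φ (n + 1)) (hc n) ih.1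
      exact ⟨h1, h2.trans ih.2⟩
  set N := Nat.card (Fix p (φ 0)) with hN
  obtain ⟨a, ha, hord⟩ := h N
  have h1 := le_card_Fix (φ N) (key N).1 ha hord
  have h2 := (key N).2
  have h3 : N < p ^ N := Nat.lt_pow_self hp
  omega

end Fermat.Agent.Cor.Mazur
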